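/-
helper38 (P-FF / FF-F1', row 658): `SpanStatement` - for a representation over a local ring
with absolutely irreducible residual representation, the image of `G_ℚ` spans `End_T(V)`.

Assembly of two landed blocks: Burnside for residual representations (`H77.burnside`) and
Nakayama for spans of endomorphisms (`H14.s31_span_range_eq_top`).
-/
import Fermat.Agent.H72.FF.FlatInterfaces
import Fermat.Agent.H77.Burnside
import Fermat.Agent.H14.S31LinAlg

set_option autoImplicit false

namespace Fermat.Agent.H38

/-- Residual spanning for an adic Galois representation with absolutely irreducible residual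
representation. -/
theorem span_residual (T : Type) [CommRing T] [IsLocalRing T] (ρ : GaloisRepAdic T)
    (h : ρ.residual.IsAbsolutelyIrreducible) :
    Submodule.span (IsLocalRing.ResidueField T)
      (Set.range fun g : AlgebraicClosure ℚ ≃ₐ[ℚ] AlgebraicClosure ℚ =>
        (ρ.ρ g).baseChange (IsLocalRing.ResidueField T)) = ⊤ :=
  Fermat.Agent.H77.burnside (IsLocalRing.ResidueField T) ρ.residual h

/-- **FF-F1' (span)**: residually absolutely irreducible ⇒ `ρ(G_ℚ)` spans `End_T(V)`. -/
theorem ffSpan : Fermat.Agent.H72.FF.SpanStatement := by
  intro T _ _ ρ h
  exact Fermat.Agent.H14.s31_span_range_eq_top ρ.ρ (span_residual T ρ h)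

end Fermat.Agent.H38
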