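import Fermat.Agent.H38.FiveExists

/-!
# There are at most 25 points killed by 5 (helper38, P-X015)
-/

set_option autoImplicit false
set_option linter.unusedSectionVars false

namespace Fermat.Agent.H38

open WeierstrassCurve WeierstrassCurve.Affine Polynomial

variable {F : Type*} [Field F] [DecidableEq F]

/-- The set of points killed by `5`. -/
def fiveTors (W : WeierstrassCurve F) : Set W.toAffine.Point := {P | 5 • P = 0}

lemma xc_mem_roots_of_mem_fiveTors (W : WeierstrassCurve F) (h5 : (5 : F) ≠ 0)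
    {P : W.toAffine.Point} (hP : P ∈ fiveTors W) (hP0 : P ≠ 0) :
    xc W P ∈ (W.preΨ' 5).roots.toFinset := by
  rw [Multiset.mem_toFinset, mem_roots (W.preΨ'_ne_zero (by exact_mod_cast h5)), IsRoot,
    eval_preΨ'_five]
  exact psi5_eq_zero_of_five_torsion W hP0 hP

lemma card_roots_preΨ'_five_le (W : WeierstrassCurve F) :
    (W.preΨ' 5).roots.toFinset.card ≤ 12 := by
  calc (W.preΨ' 5).roots.toFinset.card ≤ Multiset.card (W.preΨ' 5).roots :=
        Multiset.toFinset_card_le _
    _ ≤ (W.preΨ' 5).natDegree := card_roots' _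
    _ ≤ 12 := by
        have := W.natDegree_preΨ'_le 5
        have h5 : ¬ Even 5 := by decide
        simpa [h5] using this

lemma fiveTors_subset (W : WeierstrassCurve F) (h5 : (5 : F) ≠ 0) :
    fiveTors W ⊆ {0} ∪ ⋃ x ∈ (W.preΨ' 5).roots.toFinset,
      {P : W.toAffine.Point | P ≠ 0 ∧ xc W P = x} := by
  intro P hP
  by_cases hP0 : P = 0
  · left; exact hP0
  · right
    simp only [Set.mem_iUnion, Set.mem_ofPred_eq, exists_prop]
    exact ⟨xc W P, xc_mem_roots_of_mem_fiveTors W h5 hP hP0, hP0, rfl⟩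

lemma fiber_subset_pair (W : WeierstrassCurve F) {P₀ : W.toAffine.Point} (hP₀ : P₀ ≠ 0) :
    {P : W.toAffine.Point | P ≠ 0 ∧ xc W P = xc W P₀} ⊆ {P₀, -P₀} := by
  rintro P ⟨hP, hx⟩
  rcases eq_or_eq_neg_of_xc_eq W hP hP₀ hx with h | h
  · left; exact h
  · right; exact h

lemma fiber_finite (W : WeierstrassCurve F) (x : F) :
    {P : W.toAffine.Point | P ≠ 0 ∧ xc W P = x}.Finite := by
  by_cases hne : ∃ P₀ : W.toAffine.Point, P₀ ≠ 0 ∧ xc W P₀ = x
  · obtain ⟨P₀, hP₀, rfl⟩ := hne
    exact (Set.toFinite {P₀, -P₀}).subset (fiber_subset_pair W hP₀)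
  · have : {P : W.toAffine.Point | P ≠ 0 ∧ xc W P = x} = ∅ := by
      ext P
      simp only [Set.mem_ofPred_eq, Set.mem_empty_iff_false, iff_false]
      exact fun h => hne ⟨P, h⟩
    rw [this]
    exact Set.finite_empty

lemma fiveTors_finite (W : WeierstrassCurve F) (h5 : (5 : F) ≠ 0) : (fiveTors W).Finite := by
  refine Set.Finite.subset ?_ (fiveTors_subset W h5)
  refine (Set.finite_singleton 0).union ?_
  exact Set.Finite.biUnion (Finset.finite_toSet _) (fun x _ => fiber_finite W x)

open Classical in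
lemma fiveTors_ncard_le (W : WeierstrassCurve F) (h5 : (5 : F) ≠ 0) :
    (fiveTors W).ncard ≤ 25 := by
  have hfin := fiveTors_finite W h5
  set s : Finset W.toAffine.Point := hfin.toFinset with hs
  have hcard : (fiveTors W).ncard = s.card := Set.ncard_eq_toFinset_card _ hfin
  rw [hcard]
  set s' : Finset W.toAffine.Point := s.erase 0 with hs'
  have h1 : s.card ≤ s'.card + 1 := by
    rw [hs']
    have := Finset.pred_card_le_card_erase (s := s) (a := (0 : W.toAffine.Point))
    omega
  have himg : s'.image (xc W) ⊆ (W.preΨ' 5).roots.toFinset := by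
    intro x hx
    rw [Finset.mem_image] at hx
    obtain ⟨P, hP, rfl⟩ := hx
    rw [hs', Finset.mem_erase, hs, Set.Finite.mem_toFinset] at hP
    exact xc_mem_roots_of_mem_fiveTors W h5 hP.2 hP.1
  have h2 : s'.card ≤ 2 * (s'.image (xc W)).card := by
    apply Finset.card_le_mul_card_image
    intro x hx
    rw [Finset.mem_image] at hx
    obtain ⟨P₀, hP₀, rfl⟩ := hx
    have hP₀0 : P₀ ≠ 0 := by
      rw [hs', Finset.mem_erase] at hP₀
      exact hP₀.1
    have hsub : (s'.filter fun P => xc W P = xc W P₀) ⊆ {P₀, -P₀} := by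
      intro P hP
      rw [Finset.mem_filter, hs', Finset.mem_erase] at hP
      have := fiber_subset_pair W hP₀0 ⟨hP.1.1, hP.2⟩
      simpa using this
    exact (Finset.card_le_card hsub).trans Finset.card_le_two
  have h3 := (Finset.card_le_card himg).trans (card_roots_preΨ'_five_le W)
  omega

end Fermat.Agent.H38
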