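import Fermat.Agent.H38.FiveAlgebra

/-!
# 3- and 5-torsion points via the duplication formula (helper38, project P-X015)
-/

set_option autoImplicit false
set_option linter.unusedSectionVars false

namespace Fermat.Agent.H38

open WeierstrassCurve WeierstrassCurve.Affine

variable {F : Type*} [Field F] [DecidableEq F]

/-- For a nonzero point on a curve with `Δ ≠ 0`: `3 • P = 0 ↔ psi3 (x P) = 0`. -/
lemma three_nsmul_eq_zero_iff (W : WeierstrassCurve F) (hΔ : W.Δ ≠ 0) {P : W.toAffine.Point}
    (hP : P ≠ 0) : (3 • P = 0) ↔ psi3 W (xc W P) = 0 := by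
  constructor
  · intro h3
    have h2 : 2 • P = -P := by
      have : 2 • P + P = 0 := by rw [← h3]; abel
      exact eq_neg_of_add_eq_zero_left this
    have h2' : 2 • P ≠ 0 := by rw [h2]; exact neg_ne_zero.mpr hP
    have hx := xc_two_nsmul W hP h2'
    rw [h2, xc_neg] at hx
    rw [psi3_eq, hx, sub_self]
  · intro h
    rw [psi3_eq, sub_eq_zero] at h
    have hf : dblDen W (xc W P) ≠ 0 := by
      intro hf
      apply dblNum_ne_zero_of_dblDen_eq_zero W hΔ hf
      rw [← h, hf, mul_zero]
    have h2' : 2 • P ≠ 0 := fun h0 => hf ((two_nsmul_eq_zero_iff W hP).mp h0)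
    have hx := xc_two_nsmul W hP h2'
    have hxx : xc W (2 • P) = xc W P := mul_right_cancel₀ hf (hx.trans h.symm)
    rcases eq_or_eq_neg_of_xc_eq W h2' hP hxx with h2 | h2
    · exfalso
      apply hP
      have : P + P = P := by rw [← two_nsmul]; exact h2
      exact add_eq_right.mp this
    · have : 3 • P = 2 • P + P := by abel
      rw [this, h2, neg_add_cancel]

/-- The coordinates of a nonzero 5-torsion point and its double. -/
lemma five_torsion_data (W : WeierstrassCurve F) {P : W.toAffine.Point} (hP : P ≠ 0)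
    (h5 : 5 • P = 0) :
    2 • P ≠ 0 ∧ xc W P ≠ xc W (2 • P) ∧ dblDen W (xc W P) ≠ 0 ∧ dblDen W (xc W (2 • P)) ≠ 0 ∧
      xc W (2 • P) * dblDen W (xc W P) = dblNum W (xc W P) ∧
      xc W P * dblDen W (xc W (2 • P)) = dblNum W (xc W (2 • P)) := by
  have h2 : 2 • P ≠ 0 := by
    intro h2
    apply hP
    have : 5 • P = 2 • (2 • P) + P := by abel
    rw [this, h2, nsmul_zero, zero_add] at h5
    exact h5
  have h4 : 2 • (2 • P) = -P := by
    have : 2 • (2 • P) + P = 0 := by rw [← h5]; abel
    exact eq_neg_of_add_eq_zero_left this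
  have h4' : 2 • (2 • P) ≠ 0 := by rw [h4]; exact neg_ne_zero.mpr hP
  have hne : xc W P ≠ xc W (2 • P) := by
    intro hxx
    rcases eq_or_eq_neg_of_xc_eq W hP h2 hxx with h | h
    · apply hP
      have : P + P = P := by rw [← two_nsmul]; exact h.symm
      exact add_eq_right.mp this
    · apply hP
      have h3 : 3 • P = 0 := by
        have : 3 • P = 2 • P + P := by abel
        rw [this]
        exact add_eq_zero_iff_eq_neg.mpr (neg_eq_iff_eq_neg.mpr h).symm
      have : P = 2 • (3 • P) - 5 • P := by abel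
      rw [this, h3, h5, nsmul_zero, sub_zero]
  refine ⟨h2, hne, fun hf => h2 ((two_nsmul_eq_zero_iff W hP).mpr hf),
    fun hf => h4' ((two_nsmul_eq_zero_iff W h2).mpr hf), xc_two_nsmul W hP h2, ?_⟩
  have := xc_two_nsmul W h2 h4'
  rwa [h4, xc_neg] at this

lemma psi3_ne_zero_of_five_torsion (W : WeierstrassCurve F) {P : W.toAffine.Point} (hP : P ≠ 0)
    (h5 : 5 • P = 0) : psi3 W (xc W P) ≠ 0 := by
  obtain ⟨-, hne, hf1, -, hx2, -⟩ := five_torsion_data W hP h5
  rw [psi3_eq, ← hx2, ← sub_mul]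
  exact mul_ne_zero (sub_ne_zero.mpr hne) hf1

/-- The `x`-coordinate of a nonzero 5-torsion point is a root of `psi5`. -/
lemma psi5_eq_zero_of_five_torsion (W : WeierstrassCurve F) {P : W.toAffine.Point} (hP : P ≠ 0)
    (h5 : 5 • P = 0) : psi5 W (xc W P) = 0 := by
  obtain ⟨-, hne, hf1, -, hx2, hx4⟩ := five_torsion_data W hP h5
  have key := dblNum_sub_mul_pow_eq W hx2
  rw [← hx4, sub_self, zero_mul] at key
  have h3 := psi3_ne_zero_of_five_torsion W hP h5
  have : psi3 W (xc W P) * psi5 W (xc W P) = 0 := by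
    rw [← neg_eq_zero]; exact key.symm
  exact (mul_eq_zero.mp this).resolve_left h3

/-- Conversely a nonzero point whose `x`-coordinate is a root of `psi5` is 5-torsion
(when `Δ ≠ 0`). -/
lemma five_nsmul_eq_zero_of_psi5 (W : WeierstrassCurve F) (hΔ : W.Δ ≠ 0) {P : W.toAffine.Point}
    (hP : P ≠ 0) (h : psi5 W (xc W P) = 0) : 5 • P = 0 := by
  set x₁ := xc W P with hx₁
  have hf1 : dblDen W x₁ ≠ 0 := by
    intro hf
    have h3 : psi3 W x₁ = 0 := by
      have : psi3 W x₁ ^ 3 = 0 := by
        have h' := h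
        rw [psi5, hf] at h'
        simpa using h'
      exact pow_eq_zero_iff (by norm_num) |>.mp this
    apply dblNum_ne_zero_of_dblDen_eq_zero W hΔ hf
    rw [psi3_eq, hf, mul_zero, zero_sub, neg_eq_zero] at h3
    exact h3
  have h3 : psi3 W x₁ ≠ 0 := by
    intro h3
    have hp4 : pre4 W x₁ = 0 := by
      have h' := h
      rw [psi5, h3] at h'
      have : pre4 W x₁ * dblDen W x₁ ^ 2 = 0 := by simpa using h'
      exact (mul_eq_zero.mp this).resolve_right (pow_ne_zero _ hf1)
    have hxx : x₁ * dblDen W x₁ = dblNum W x₁ := by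
      rw [psi3_eq, sub_eq_zero] at h3; exact h3
    have := dblDen_mul_pow_eq W hxx
    rw [hp4] at this
    have : dblDen W x₁ ^ 4 = 0 := by
      rw [pow_succ' _ 3, this]; norm_num
    exact hf1 (pow_eq_zero_iff (by norm_num) |>.mp this)
  have h2 : 2 • P ≠ 0 := fun h0 => hf1 ((two_nsmul_eq_zero_iff W hP).mp h0)
  have hx2 := xc_two_nsmul W hP h2
  rw [← hx₁] at hx2
  have hp4 : pre4 W x₁ ≠ 0 := by
    intro hp4
    have h' := h
    rw [psi5, hp4, zero_mul, zero_sub, neg_eq_zero] at h'
    exact h3 (pow_eq_zero_iff (by norm_num) |>.mp h')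
  have hf2 : dblDen W (xc W (2 • P)) ≠ 0 := by
    intro hf2
    have := dblDen_mul_pow_eq W hx2
    rw [hf2, zero_mul] at this
    exact hp4 (pow_eq_zero_iff (by norm_num) |>.mp this.symm)
  have h4 : 2 • (2 • P) ≠ 0 := fun h0 => hf2 ((two_nsmul_eq_zero_iff W h2).mp h0)
  have hx4 := xc_two_nsmul W h2 h4
  have key := dblNum_sub_mul_pow_eq W hx2
  rw [h, mul_zero, neg_zero] at key
  have key' : dblNum W (xc W (2 • P)) = x₁ * dblDen W (xc W (2 • P)) := by
    have := (mul_eq_zero.mp key).resolve_right (pow_ne_zero _ hf1)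
    exact sub_eq_zero.mp this
  have hxx : xc W (2 • (2 • P)) = xc W P := by
    rw [key'] at hx4
    exact mul_right_cancel₀ hf2 hx4
  rcases eq_or_eq_neg_of_xc_eq W h4 hP hxx with h' | h'
  · exfalso
    apply h3
    rw [hx₁]
    apply (three_nsmul_eq_zero_iff W hΔ hP).mp
    have : 3 • P + P = P := by
      have e : 3 • P + P = 2 • (2 • P) := by abel
      rw [e, h']
    exact add_eq_right.mp this
  · have : 5 • P = 2 • (2 • P) + P := by abel
    rw [this, h', neg_add_cancel]

end Fermat.Agent.H38
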