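import Mathlib
import Fermat.Agent.H38.FiveCard
import Fermat.Prelude.Def_FLTPrelim_GaloisRep

/-!
# 5-torsion of an elliptic curve over `ℚ`: Galois-stable lines (helper38, P-X015, part A5)

Main results, for `E : WeierstrassCurve ℚ` with `E.Δ ≠ 0` and `K = AlgebraicClosure ℚ`:
* `nontrivial_torsionBy_five`: `E[5](K)` is nontrivial;
* `exists_x_of_stable_line`: a Galois-stable proper nonzero `ZMod 5`-submodule of `E[5](K)` yields
  `x₁ = x(P)`, `x₂ = x(2P)` with `x₁ ≠ x₂`, the duplication relations in both directions, and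
  `x₁ + x₂`, `x₁ * x₂` rational.
-/

set_option autoImplicit false
set_option linter.unusedSectionVars false

namespace Fermat.Agent.H38

open WeierstrassCurve WeierstrassCurve.Affine WeierstrassCurve.Affine.Point

/-! ## Generic glue -/

theorem isGalois_ratBar : IsGalois ℚ (AlgebraicClosure ℚ) := by
  have h : (DivisionRing.toRatAlgebra : Algebra ℚ (AlgebraicClosure ℚ)) =
      AlgebraicClosure.instAlgebra ℚ := Subsingleton.elim _ _
  rw [h]
  infer_instance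

theorem rat_of_fixed (x : AlgebraicClosure ℚ)
    (h : ∀ σ : AlgebraicClosure ℚ ≃ₐ[ℚ] AlgebraicClosure ℚ, σ x = x) :
    ∃ q : ℚ, algebraMap ℚ (AlgebraicClosure ℚ) q = x :=
  have := isGalois_ratBar
  (InfiniteGalois.mem_range_algebraMap_iff_fixed x).mpr h

/-- A proper nonzero subspace of a vector space over `ZMod p` with fewer than `p³` elements is a
line. -/
theorem line_of_card_lt (p : ℕ) [Fact p.Prime] (M : Type*) [AddCommGroup M] [Module (ZMod p) M]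
    [Finite M] (hcard : Nat.card M < p ^ 3) (N : Submodule (ZMod p) M) (hbot : N ≠ ⊥)
    (htop : N ≠ ⊤) : ∃ P : M, P ≠ 0 ∧ P ∈ N ∧ ∀ Q ∈ N, ∃ c : ZMod p, Q = c • P := by
  have hp : 1 < p := (Fact.out : p.Prime).one_lt
  have : Module.Finite (ZMod p) M := Module.Finite.of_finite
  have hM : Module.finrank (ZMod p) M < 3 := by
    have h := Module.natCard_eq_pow_finrank (K := ZMod p) (V := M)
    rw [Nat.card_zmod] at h
    rw [h] at hcard
    exact (Nat.pow_lt_pow_iff_right hp).mp hcard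
  have hN1 : Module.finrank (ZMod p) N < Module.finrank (ZMod p) M :=
    Submodule.finrank_lt htop
  have hN0 : 0 < Module.finrank (ZMod p) N := by
    rw [Module.finrank_pos_iff (R := ZMod p)]
    exact (Submodule.nontrivial_iff_ne_bot).mpr hbot
  have hN : Module.finrank (ZMod p) N = 1 := by omega
  obtain ⟨v, hv0, hv⟩ := (finrank_eq_one_iff' (K := ZMod p) (V := N)).mp hN
  refine ⟨v.1, fun h => hv0 (Subtype.ext h), v.2, fun Q hQ => ?_⟩
  obtain ⟨c, hc⟩ := hv ⟨Q, hQ⟩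
  exact ⟨c, by rw [← Submodule.coe_smul, hc]⟩


/-! ## The 5-torsion of `E` over `AlgebraicClosure ℚ` -/

section Five

variable (E : WeierstrassCurve ℚ)

/-- Membership in the 5-torsion submodule in terms of the `ℕ`-action. -/
lemma mem_torsionBy_five_iff (P : (E.toAffine⁄(AlgebraicClosure ℚ)).Point) :
    P ∈ Submodule.torsionBy ℤ (E.toAffine⁄(AlgebraicClosure ℚ)).Point ((5 : ℕ) : ℤ) ↔
      5 • P = 0 := by
  rw [Submodule.mem_torsionBy_iff, natCast_zsmul]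

/-- `E[5](ℚ̄)` is nontrivial. -/
theorem nontrivial_torsionBy_five (hΔ : E.Δ ≠ 0) :
    Nontrivial (Submodule.torsionBy ℤ (E.toAffine⁄(AlgebraicClosure ℚ)).Point ((5 : ℕ) : ℤ)) := by
  have hΔ' : (E.toAffine⁄(AlgebraicClosure ℚ)).Δ ≠ 0 := by
    change (E.map (algebraMap ℚ (AlgebraicClosure ℚ))).Δ ≠ 0
    rw [WeierstrassCurve.map_Δ]
    exact (map_ne_zero_iff _ (algebraMap ℚ (AlgebraicClosure ℚ)).injective).mpr hΔ
  obtain ⟨P, hP0, hP5⟩ := exists_five_torsion_point (E.toAffine⁄(AlgebraicClosure ℚ)) hΔ'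
    (by norm_num)
  refine ⟨⟨⟨P, (mem_torsionBy_five_iff E P).mpr hP5⟩, 0, ?_⟩⟩
  intro h
  exact hP0 (congrArg Subtype.val h)

/-- The Galois action on `x`-coordinates. -/
lemma xc_galois_smul (σ : AlgebraicClosure ℚ ≃ₐ[ℚ] AlgebraicClosure ℚ)
    (P : (E.toAffine⁄(AlgebraicClosure ℚ)).Point) :
    xc (E.toAffine⁄(AlgebraicClosure ℚ)) (σ • P) = σ (xc (E.toAffine⁄(AlgebraicClosure ℚ)) P) := by
  cases P with
  | zero => exact (map_zero σ).symm
  | some x y h => rfl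

lemma galois_smul_nsmul (σ : AlgebraicClosure ℚ ≃ₐ[ℚ] AlgebraicClosure ℚ) (n : ℕ)
    (P : (E.toAffine⁄(AlgebraicClosure ℚ)).Point) : σ • (n • P) = n • (σ • P) :=
  map_nsmul (Point.map (W' := E.toAffine) σ.toAlgHom) n P

lemma galois_smul_eq_zero_iff (σ : AlgebraicClosure ℚ ≃ₐ[ℚ] AlgebraicClosure ℚ)
    (P : (E.toAffine⁄(AlgebraicClosure ℚ)).Point) : σ • P = 0 ↔ P = 0 := by
  constructor
  · intro h
    exact Point.map_injective (W' := E.toAffine) σ.toAlgHom (h.trans (Point.map_zero _).symm)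
  · rintro rfl
    rfl

/-- The 5-torsion is finite with at most 25 elements. -/
lemma card_torsionBy_five_lt :
    Finite (Submodule.torsionBy ℤ (E.toAffine⁄(AlgebraicClosure ℚ)).Point ((5 : ℕ) : ℤ)) ∧
    Nat.card (Submodule.torsionBy ℤ (E.toAffine⁄(AlgebraicClosure ℚ)).Point ((5 : ℕ) : ℤ))
      < 5 ^ 3 := by
  have h5 : (5 : AlgebraicClosure ℚ) ≠ 0 := by norm_num
  have hset : ((Submodule.torsionBy ℤ (E.toAffine⁄(AlgebraicClosure ℚ)).Point ((5 : ℕ) : ℤ) :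
      Submodule ℤ _) : Set (E.toAffine⁄(AlgebraicClosure ℚ)).Point)
      = fiveTors (E.toAffine⁄(AlgebraicClosure ℚ)) := by
    ext P
    exact mem_torsionBy_five_iff E P
  have hfin := fiveTors_finite (E.toAffine⁄(AlgebraicClosure ℚ)) h5
  have hle := fiveTors_ncard_le (E.toAffine⁄(AlgebraicClosure ℚ)) h5
  rw [← hset] at hfin hle
  refine ⟨hfin, ?_⟩
  have : Nat.card (Submodule.torsionBy ℤ (E.toAffine⁄(AlgebraicClosure ℚ)).Point ((5 : ℕ) : ℤ))
      = Set.ncard ((Submodule.torsionBy ℤ (E.toAffine⁄(AlgebraicClosure ℚ)).Point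
        ((5 : ℕ) : ℤ) : Submodule ℤ _) : Set (E.toAffine⁄(AlgebraicClosure ℚ)).Point) := by
    rw [← Nat.card_coe_set_eq]
    rfl
  rw [this]
  omega

/-- `x`-coordinates of the multiples of a 5-torsion point. -/
lemma xc_multiples {P : (E.toAffine⁄(AlgebraicClosure ℚ)).Point} (hP5 : 5 • P = 0) :
    xc (E.toAffine⁄(AlgebraicClosure ℚ)) (3 • P) = xc (E.toAffine⁄(AlgebraicClosure ℚ)) (2 • P) ∧
    xc (E.toAffine⁄(AlgebraicClosure ℚ)) (4 • P) = xc (E.toAffine⁄(AlgebraicClosure ℚ)) P ∧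
    xc (E.toAffine⁄(AlgebraicClosure ℚ)) (6 • P) = xc (E.toAffine⁄(AlgebraicClosure ℚ)) P ∧
    xc (E.toAffine⁄(AlgebraicClosure ℚ)) (8 • P) = xc (E.toAffine⁄(AlgebraicClosure ℚ)) (2 • P) := by
  obtain ⟨Q, hQ⟩ : ∃ Q : (E.toAffine⁄(AlgebraicClosure ℚ)).Point, Q = 2 • P := ⟨_, rfl⟩
  have h3 : 3 • P = -Q := by
    have e : 3 • P + Q = 5 • P := by rw [hQ]; abel
    exact eq_neg_of_add_eq_zero_left (e.trans hP5)
  have h4 : 4 • P = -P := by
    have e : 4 • P + P = 5 • P := by abel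
    exact eq_neg_of_add_eq_zero_left (e.trans hP5)
  have h6 : 6 • P = P := by
    have : 6 • P = 5 • P + P := by abel
    rw [this, hP5, zero_add]
  have h8 : 8 • P = -Q := by
    have : 8 • P = 5 • P + 3 • P := by abel
    rw [this, hP5, zero_add, h3]
  rw [← hQ]
  rw [h3, h4, h6, h8, xc_neg, xc_neg]
  exact ⟨rfl, rfl, rfl, rfl⟩

/-- **Part A5b.** A Galois-stable proper nonzero submodule of `E[5](ℚ̄)` is a line `{0, ±P, ±2P}`;
the `x`-coordinates `x₁ = x(P)`, `x₂ = x(2P)` are distinct, related by the duplication formula in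
both directions, and their elementary symmetric functions are rational. -/
theorem exists_x_of_stable_line
    (N : Submodule (ZMod 5)
      (Submodule.torsionBy ℤ (E.toAffine⁄(AlgebraicClosure ℚ)).Point ((5 : ℕ) : ℤ)))
    (hN : IsGaloisStable ℚ N) (hbot : N ≠ ⊥) (htop : N ≠ ⊤) :
    ∃ x₁ x₂ : AlgebraicClosure ℚ, x₁ ≠ x₂ ∧
      dblDen (E.toAffine⁄(AlgebraicClosure ℚ)) x₁ ≠ 0 ∧
      dblDen (E.toAffine⁄(AlgebraicClosure ℚ)) x₂ ≠ 0 ∧
      x₂ * dblDen (E.toAffine⁄(AlgebraicClosure ℚ)) x₁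
        = dblNum (E.toAffine⁄(AlgebraicClosure ℚ)) x₁ ∧
      x₁ * dblDen (E.toAffine⁄(AlgebraicClosure ℚ)) x₂
        = dblNum (E.toAffine⁄(AlgebraicClosure ℚ)) x₂ ∧
      ∃ s p : ℚ, algebraMap ℚ (AlgebraicClosure ℚ) s = x₁ + x₂ ∧
        algebraMap ℚ (AlgebraicClosure ℚ) p = x₁ * x₂ := by
  have : Fact (Nat.Prime 5) := ⟨by norm_num⟩
  obtain ⟨hfin, hcard⟩ := card_torsionBy_five_lt E
  have := hfin
  obtain ⟨P₀, hP₀0, hP₀N, hline⟩ := line_of_card_lt 5 _ hcard N hbot htop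
  have hP0 : (P₀ : (E.toAffine⁄(AlgebraicClosure ℚ)).Point) ≠ 0 := fun h => hP₀0 (Subtype.ext h)
  have hP5 : 5 • (P₀ : (E.toAffine⁄(AlgebraicClosure ℚ)).Point) = 0 :=
    (mem_torsionBy_five_iff E _).mp P₀.2
  obtain ⟨h2, hne, hf1, hf2, hx2, hx4⟩ := five_torsion_data _ hP0 hP5
  obtain ⟨hm3, hm4, hm6, hm8⟩ := xc_multiples E hP5
  refine ⟨_, _, hne, hf1, hf2, hx2, hx4, ?_⟩
  have key : ∀ σ : AlgebraicClosure ℚ ≃ₐ[ℚ] AlgebraicClosure ℚ,
      (σ (xc (E.toAffine⁄(AlgebraicClosure ℚ)) P₀.1) = xc (E.toAffine⁄(AlgebraicClosure ℚ)) P₀.1 ∧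
        σ (xc (E.toAffine⁄(AlgebraicClosure ℚ)) (2 • P₀.1))
          = xc (E.toAffine⁄(AlgebraicClosure ℚ)) (2 • P₀.1)) ∨
      (σ (xc (E.toAffine⁄(AlgebraicClosure ℚ)) P₀.1)
          = xc (E.toAffine⁄(AlgebraicClosure ℚ)) (2 • P₀.1) ∧
        σ (xc (E.toAffine⁄(AlgebraicClosure ℚ)) (2 • P₀.1))
          = xc (E.toAffine⁄(AlgebraicClosure ℚ)) P₀.1) := by
    intro σ
    obtain ⟨c, hc⟩ := hline _ (hN σ P₀ hP₀N)
    have hc1 : c • P₀ = c.val • P₀ := by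
      rw [← Nat.cast_smul_eq_nsmul (ZMod 5), ZMod.natCast_zmod_val]
    have hc2 : σ • (P₀ : (E.toAffine⁄(AlgebraicClosure ℚ)).Point) = c.val • P₀.1 := by
      have := congrArg Subtype.val (hc.trans hc1)
      exact this.trans (AddSubmonoidClass.coe_nsmul _ _)
    have hlt : c.val < 5 := ZMod.val_lt c
    have hc0 : c.val ≠ 0 := by
      intro h0
      rw [h0, zero_nsmul] at hc2
      exact hP0 ((galois_smul_eq_zero_iff E σ _).mp hc2)
    have e1 : σ (xc (E.toAffine⁄(AlgebraicClosure ℚ)) P₀.1)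
        = xc (E.toAffine⁄(AlgebraicClosure ℚ)) (c.val • P₀.1) := by
      rw [← xc_galois_smul, hc2]
    have e2 : σ (xc (E.toAffine⁄(AlgebraicClosure ℚ)) (2 • P₀.1))
        = xc (E.toAffine⁄(AlgebraicClosure ℚ)) ((2 * c.val) • P₀.1) := by
      rw [← xc_galois_smul, galois_smul_nsmul, hc2, ← mul_nsmul']
    rw [e1, e2]
    generalize c.val = k at hlt hc0
    interval_cases k
    · exact absurd rfl hc0
    · left; exact ⟨by rw [one_nsmul], rfl⟩
    · right; exact ⟨rfl, hm4⟩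
    · right; exact ⟨hm3, hm6⟩
    · left; exact ⟨hm4, hm8⟩
  have hs : ∀ σ : AlgebraicClosure ℚ ≃ₐ[ℚ] AlgebraicClosure ℚ,
      σ (xc (E.toAffine⁄(AlgebraicClosure ℚ)) P₀.1
        + xc (E.toAffine⁄(AlgebraicClosure ℚ)) (2 • P₀.1))
      = xc (E.toAffine⁄(AlgebraicClosure ℚ)) P₀.1
        + xc (E.toAffine⁄(AlgebraicClosure ℚ)) (2 • P₀.1) := by
    intro σ
    rw [map_add]
    rcases key σ with ⟨h1, h2⟩ | ⟨h1, h2⟩
    · rw [h1, h2]
    · rw [h1, h2, add_comm]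
  have hp : ∀ σ : AlgebraicClosure ℚ ≃ₐ[ℚ] AlgebraicClosure ℚ,
      σ (xc (E.toAffine⁄(AlgebraicClosure ℚ)) P₀.1
        * xc (E.toAffine⁄(AlgebraicClosure ℚ)) (2 • P₀.1))
      = xc (E.toAffine⁄(AlgebraicClosure ℚ)) P₀.1
        * xc (E.toAffine⁄(AlgebraicClosure ℚ)) (2 • P₀.1) := by
    intro σ
    rw [map_mul]
    rcases key σ with ⟨h1, h2⟩ | ⟨h1, h2⟩
    · rw [h1, h2]
    · rw [h1, h2, mul_comm]
  obtain ⟨s, hs'⟩ := rat_of_fixed _ hs
  obtain ⟨p, hp'⟩ := rat_of_fixed _ hp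
  exact ⟨s, p, hs', hp'⟩

end Five

end Fermat.Agent.H38
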