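import Mathlib
import Fermat.Agent.H38.FiveGalois
import Fermat.Prelude.Def_FLTPrelim_ModularRep

/-!
# P-X015 part A5 (helper38): the mod-5 half of S51

For `W : WeierstrassCurve ℤ` with `W.Δ ≠ 0`: if the mod-5 representation is NOT irreducible then
there are `x₁ ≠ x₂` in `ℚ̄` (the `x`-coordinates of `P` and `2P` for a generator `P` of a
Galois-stable line in `E[5]`) related by the duplication formula in both directions, with
`x₁ + x₂` and `x₁ x₂` rational.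
-/

set_option autoImplicit false

namespace Fermat.Agent.H38

open WeierstrassCurve WeierstrassCurve.Affine WeierstrassCurve.Affine.Point

/-- The conclusion of part A5, in the shape consumed by the algebra part (B). -/
def FiveData (W : WeierstrassCurve ℤ) : Prop :=
  ∃ x₁ x₂ : AlgebraicClosure ℚ, x₁ ≠ x₂ ∧
    4 * x₁ ^ 3 + (W.b₂ : AlgebraicClosure ℚ) * x₁ ^ 2 + 2 * (W.b₄ : AlgebraicClosure ℚ) * x₁
      + (W.b₆ : AlgebraicClosure ℚ) ≠ 0 ∧
    4 * x₂ ^ 3 + (W.b₂ : AlgebraicClosure ℚ) * x₂ ^ 2 + 2 * (W.b₄ : AlgebraicClosure ℚ) * x₂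
      + (W.b₆ : AlgebraicClosure ℚ) ≠ 0 ∧
    x₂ * (4 * x₁ ^ 3 + (W.b₂ : AlgebraicClosure ℚ) * x₁ ^ 2
        + 2 * (W.b₄ : AlgebraicClosure ℚ) * x₁ + (W.b₆ : AlgebraicClosure ℚ))
      = x₁ ^ 4 - (W.b₄ : AlgebraicClosure ℚ) * x₁ ^ 2 - 2 * (W.b₆ : AlgebraicClosure ℚ) * x₁
        - (W.b₈ : AlgebraicClosure ℚ) ∧
    x₁ * (4 * x₂ ^ 3 + (W.b₂ : AlgebraicClosure ℚ) * x₂ ^ 2
        + 2 * (W.b₄ : AlgebraicClosure ℚ) * x₂ + (W.b₆ : AlgebraicClosure ℚ))
      = x₂ ^ 4 - (W.b₄ : AlgebraicClosure ℚ) * x₂ ^ 2 - 2 * (W.b₆ : AlgebraicClosure ℚ) * x₂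
        - (W.b₈ : AlgebraicClosure ℚ) ∧
    ∃ s p : ℚ, algebraMap ℚ (AlgebraicClosure ℚ) s = x₁ + x₂ ∧
      algebraMap ℚ (AlgebraicClosure ℚ) p = x₁ * x₂

lemma dblDen_baseChange_int (W : WeierstrassCurve ℤ) (x : AlgebraicClosure ℚ) :
    dblDen ((W.map (Int.castRingHom ℚ)).toAffine⁄(AlgebraicClosure ℚ)) x
      = 4 * x ^ 3 + (W.b₂ : AlgebraicClosure ℚ) * x ^ 2 + 2 * (W.b₄ : AlgebraicClosure ℚ) * x
        + (W.b₆ : AlgebraicClosure ℚ) := by
  change dblDen ((W.map (Int.castRingHom ℚ)).map (algebraMap ℚ (AlgebraicClosure ℚ))) x = _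
  simp only [dblDen, WeierstrassCurve.map_b₂, WeierstrassCurve.map_b₄, WeierstrassCurve.map_b₆,
    eq_intCast, map_intCast]

lemma dblNum_baseChange_int (W : WeierstrassCurve ℤ) (x : AlgebraicClosure ℚ) :
    dblNum ((W.map (Int.castRingHom ℚ)).toAffine⁄(AlgebraicClosure ℚ)) x
      = x ^ 4 - (W.b₄ : AlgebraicClosure ℚ) * x ^ 2 - 2 * (W.b₆ : AlgebraicClosure ℚ) * x
        - (W.b₈ : AlgebraicClosure ℚ) := by
  change dblNum ((W.map (Int.castRingHom ℚ)).map (algebraMap ℚ (AlgebraicClosure ℚ))) x = _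
  simp only [dblNum, WeierstrassCurve.map_b₄, WeierstrassCurve.map_b₆, WeierstrassCurve.map_b₈,
    eq_intCast, map_intCast]

/-- **Part A5a** for integral models: `E[5](ℚ̄)` is nontrivial. -/
theorem nontrivial_torsionBy_five_int (W : WeierstrassCurve ℤ) (hΔ : W.Δ ≠ 0) :
    Nontrivial (Submodule.torsionBy ℤ
      ((W.map (Int.castRingHom ℚ)).toAffine⁄(AlgebraicClosure ℚ)).Point ((5 : ℕ) : ℤ)) := by
  apply nontrivial_torsionBy_five
  rw [WeierstrassCurve.map_Δ]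
  exact (map_ne_zero_iff _ (Int.castRingHom ℚ).injective_int).mpr hΔ

/-- **Part A5b** for integral models. -/
theorem fiveData_of_stable_line (W : WeierstrassCurve ℤ)
    (N : Submodule (ZMod 5) (Submodule.torsionBy ℤ
      ((W.map (Int.castRingHom ℚ)).toAffine⁄(AlgebraicClosure ℚ)).Point ((5 : ℕ) : ℤ)))
    (hN : IsGaloisStable ℚ N) (hbot : N ≠ ⊥) (htop : N ≠ ⊤) : FiveData W := by
  obtain ⟨x₁, x₂, hne, hf1, hf2, h12, h21, hsp⟩ :=
    exists_x_of_stable_line (W.map (Int.castRingHom ℚ)) N hN hbot htop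
  rw [dblDen_baseChange_int] at hf1 hf2
  rw [dblDen_baseChange_int, dblNum_baseChange_int] at h12 h21
  exact ⟨x₁, x₂, hne, hf1, hf2, h12, h21, hsp⟩

/-- **Part A5** (mod-5 half of S51): a reducible mod-5 representation yields `FiveData`. -/
theorem fiveData_of_not_irreducible (W : WeierstrassCurve ℤ) (hΔ : W.Δ ≠ 0)
    (h : ¬ W.ModRepIsIrreducible 5) : FiveData W := by
  unfold WeierstrassCurve.ModRepIsIrreducible GaloisRepIsIrreducible at h
  rw [not_and_or] at h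
  rcases h with h | h
  · exact absurd (nontrivial_torsionBy_five_int W hΔ) h
  · push Not at h
    obtain ⟨N, hN, hbot, htop⟩ := h
    exact fiveData_of_stable_line W N hN hbot htop

end Fermat.Agent.H38
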