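import Mathlib.AlgebraicGeometry.EllipticCurve.Affine.Point
import Mathlib.Tactic.LinearCombination
import Mathlib.Tactic.FieldSimp

/-!
# The x-coordinate duplication formula on a Weierstrass curve (helper38, project P-X015)

For a Weierstrass curve `W` over a field, with `b`-invariants `b₂, b₄, b₆, b₈`, put
`dblDen x = 4x³ + b₂x² + 2b₄x + b₆` and `dblNum x = x⁴ - b₄x² - 2b₆x - b₈`.
For a nonsingular point `P = (x, y)`:
* `P + P = 0 ↔ dblDen x = 0`;
* otherwise `x(2P) * dblDen x = dblNum x`.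
-/

set_option autoImplicit false
set_option linter.unusedSectionVars false

namespace Fermat.Agent.H38

open WeierstrassCurve WeierstrassCurve.Affine

variable {F : Type*} [Field F]

/-- `4x³ + b₂x² + 2b₄x + b₆`, the denominator of the duplication formula. -/
def dblDen (W : WeierstrassCurve F) (x : F) : F :=
  4 * x ^ 3 + W.b₂ * x ^ 2 + 2 * W.b₄ * x + W.b₆

/-- `x⁴ - b₄x² - 2b₆x - b₈`, the numerator of the duplication formula. -/
def dblNum (W : WeierstrassCurve F) (x : F) : F :=
  x ^ 4 - W.b₄ * x ^ 2 - 2 * W.b₆ * x - W.b₈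

/-- The third division polynomial `3x⁴ + b₂x³ + 3b₄x² + 3b₆x + b₈`. -/
def psi3 (W : WeierstrassCurve F) (x : F) : F :=
  3 * x ^ 4 + W.b₂ * x ^ 3 + 3 * W.b₄ * x ^ 2 + 3 * W.b₆ * x + W.b₈

lemma psi3_eq (W : WeierstrassCurve F) (x : F) :
    psi3 W x = x * dblDen W x - dblNum W x := by
  simp only [psi3, dblDen, dblNum]; ring

/-- `dblDen` is the square of `2y + a₁x + a₃` on the curve. -/
lemma dblDen_eq_sq (W : WeierstrassCurve F) {x y : F} (h : W.toAffine.Equation x y) :
    dblDen W x = (y - W.toAffine.negY x y) ^ 2 := by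
  rw [Affine.equation_iff] at h
  simp only [dblDen, negY, WeierstrassCurve.b₂, WeierstrassCurve.b₄, WeierstrassCurve.b₆]
  linear_combination (-4 : F) * h

lemma dblDen_eq_zero_iff (W : WeierstrassCurve F) {x y : F} (h : W.toAffine.Equation x y) :
    dblDen W x = 0 ↔ y = W.toAffine.negY x y := by
  rw [dblDen_eq_sq W h, sq_eq_zero_iff, sub_eq_zero]

/-- Coprimality of numerator and denominator of the duplication formula. -/
lemma dblDen_dblNum_discr (W : WeierstrassCurve F) (x : F) :
    (12 * x ^ 3 - W.b₂ * x ^ 2 - 10 * W.b₄ * x + W.b₂ * W.b₄ - 27 * W.b₆) * dblDen W x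
      - (48 * x ^ 2 + 8 * W.b₂ * x + 32 * W.b₄ - W.b₂ ^ 2) * dblNum W x = W.Δ := by
  simp only [dblDen, dblNum, WeierstrassCurve.Δ]
  linear_combination (12 * x ^ 2 + 2 * x * W.b₂ + 8 * W.b₄) * W.b_relation

lemma dblNum_ne_zero_of_dblDen_eq_zero (W : WeierstrassCurve F) (hΔ : W.Δ ≠ 0) {x : F}
    (h : dblDen W x = 0) : dblNum W x ≠ 0 := by
  intro h'
  apply hΔ
  rw [← dblDen_dblNum_discr W x, h, h']
  ring

variable [DecidableEq F]

/-- The x-coordinate duplication formula. -/
lemma addX_self_mul_dblDen (W : WeierstrassCurve F) {x y : F} (h : W.toAffine.Equation x y)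
    (hy : y ≠ W.toAffine.negY x y) :
    W.toAffine.addX x x (W.toAffine.slope x x y y) * dblDen W x = dblNum W x := by
  have hη : 2 * y + W.a₁ * x + W.a₃ ≠ 0 := by
    intro h0
    apply hy
    simp only [negY]
    linear_combination h0
  have hs : W.toAffine.slope x x y y =
      (3 * x ^ 2 + 2 * W.a₂ * x + W.a₄ - W.a₁ * y) / (2 * y + W.a₁ * x + W.a₃) := by
    rw [Affine.slope_of_Y_ne rfl hy]
    congr 1
    simp only [negY]
    ring
  have hd : dblDen W x = (2 * y + W.a₁ * x + W.a₃) ^ 2 := by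
    rw [dblDen_eq_sq W h]
    simp only [negY]
    ring
  rw [hd, hs]
  rw [Affine.equation_iff] at h
  simp only [dblNum, addX, WeierstrassCurve.b₄, WeierstrassCurve.b₆, WeierstrassCurve.b₈]
  generalize hη' : 2 * y + W.a₁ * x + W.a₃ = η at hη ⊢
  field_simp
  subst hη'
  linear_combination (-8 * x - W.a₁ ^ 2 - 4 * W.a₂) * h

/-! ## Points -/

/-- The `x`-coordinate of a point (junk value `0` at the origin). -/
def xc (W : WeierstrassCurve F) : W.toAffine.Point → F
  | .zero => 0
  | .some x _ _ => x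

@[simp] lemma xc_some (W : WeierstrassCurve F) {x y : F} (h : W.toAffine.Nonsingular x y) :
    xc W (.some x y h) = x := rfl

lemma xc_neg (W : WeierstrassCurve F) (P : W.toAffine.Point) : xc W (-P) = xc W P := by
  cases P <;> rfl

lemma exists_some_of_ne_zero (W : WeierstrassCurve F) {P : W.toAffine.Point} (hP : P ≠ 0) :
    ∃ (x y : F) (h : W.toAffine.Nonsingular x y), P = .some x y h := by
  cases P with
  | zero => exact absurd rfl hP
  | some x y h => exact ⟨x, y, h, rfl⟩

lemma eq_or_eq_neg_of_xc_eq (W : WeierstrassCurve F) {P Q : W.toAffine.Point} (hP : P ≠ 0)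
    (hQ : Q ≠ 0) (h : xc W P = xc W Q) : P = Q ∨ P = -Q := by
  obtain ⟨x₁, y₁, h₁, rfl⟩ := exists_some_of_ne_zero W hP
  obtain ⟨x₂, y₂, h₂, rfl⟩ := exists_some_of_ne_zero W hQ
  simp only [xc_some] at h
  subst h
  rcases Affine.Y_eq_of_X_eq h₁.1 h₂.1 rfl with hy | hy
  · left; subst hy; rfl
  · right; subst hy; rfl

lemma some_add_self_eq_zero_iff (W : WeierstrassCurve F) {x y : F}
    (h : W.toAffine.Nonsingular x y) :
    (Point.some x y h + Point.some x y h = 0) ↔ dblDen W x = 0 := by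
  rw [dblDen_eq_zero_iff W h.1]
  constructor
  · intro h0
    by_contra hy
    rw [Point.add_self_of_Y_ne hy] at h0
    exact Point.some_ne_zero _ h0
  · intro hy
    exact Point.add_self_of_Y_eq hy

/-- For `P ≠ 0`: `2 • P = 0 ↔ dblDen (x P) = 0`. -/
lemma two_nsmul_eq_zero_iff (W : WeierstrassCurve F) {P : W.toAffine.Point} (hP : P ≠ 0) :
    (2 • P = 0) ↔ dblDen W (xc W P) = 0 := by
  obtain ⟨x, y, h, rfl⟩ := exists_some_of_ne_zero W hP
  rw [two_nsmul, some_add_self_eq_zero_iff, xc_some]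

/-- The duplication formula for points: if `P ≠ 0` and `2 • P ≠ 0` then
`x(2P) * dblDen (x P) = dblNum (x P)`. -/
lemma xc_two_nsmul (W : WeierstrassCurve F) {P : W.toAffine.Point} (hP : P ≠ 0)
    (h2 : 2 • P ≠ 0) : xc W (2 • P) * dblDen W (xc W P) = dblNum W (xc W P) := by
  obtain ⟨x, y, h, rfl⟩ := exists_some_of_ne_zero W hP
  have hy : y ≠ W.toAffine.negY x y := by
    intro hy
    apply h2
    rw [two_nsmul]
    exact Point.add_self_of_Y_eq hy
  rw [two_nsmul, Point.add_self_of_Y_ne hy, xc_some, xc_some]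
  exact addX_self_mul_dblDen W h.1 hy

end Fermat.Agent.H38

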