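import Fermat.Agent.H38.Doubling

/-!
# Algebraic identities behind 4- and 5-torsion (helper38, project P-X015)

With `f = dblDen`, `g = dblNum` (so that `x(2P) = g/f`), `pre4` the auxiliary 4-division polynomial
and `psi5 = pre4 * f² - psi3³` the 5-division polynomial:
* `dblDen (g/f) * f³ = pre4²`,
* `(dblNum (g/f) - x * dblDen (g/f)) * f⁴ = - psi3 * psi5`.
-/

set_option autoImplicit false

namespace Fermat.Agent.H38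

open WeierstrassCurve

variable {F : Type*} [Field F]

/-- The auxiliary 4-division polynomial `preΨ₄`, as a function. -/
def pre4 (W : WeierstrassCurve F) (x : F) : F :=
  2 * x ^ 6 + W.b₂ * x ^ 5 + 5 * W.b₄ * x ^ 4 + 10 * W.b₆ * x ^ 3 + 10 * W.b₈ * x ^ 2 +
    (W.b₂ * W.b₈ - W.b₄ * W.b₆) * x + (W.b₄ * W.b₈ - W.b₆ ^ 2)

/-- The 5-division polynomial, as a function. -/
def psi5 (W : WeierstrassCurve F) (x : F) : F :=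
  pre4 W x * dblDen W x ^ 2 - psi3 W x ^ 3

/-- Homogenised `dblDen` evaluated at `(dblNum : dblDen)` is `pre4²`. -/
lemma homDen_eq (W : WeierstrassCurve F) (x : F) :
    4 * dblNum W x ^ 3 + W.b₂ * dblNum W x ^ 2 * dblDen W x
      + 2 * W.b₄ * dblNum W x * dblDen W x ^ 2 + W.b₆ * dblDen W x ^ 3 = pre4 W x ^ 2 := by
  simp only [dblDen, dblNum, pre4]
  linear_combination (-13*x^8 - 8*x^7*W.b₂ - x^6*W.b₂^2 - 28*x^6*W.b₄ - 6*x^5*W.b₂*W.b₄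
    - 38*x^5*W.b₆ - 7*x^4*W.b₂*W.b₆ - 8*x^4*W.b₄^2 - 22*x^4*W.b₈ - 4*x^3*W.b₂*W.b₈
    - 16*x^3*W.b₄*W.b₆ - 8*x^2*W.b₄*W.b₈ - 7*x^2*W.b₆^2 - 6*x*W.b₆*W.b₈ - W.b₈^2) * W.b_relation

/-- Homogenised `dblNum - x * dblDen` evaluated at `(dblNum : dblDen)` is `- psi3 * psi5`. -/
lemma homNum_sub_eq (W : WeierstrassCurve F) (x : F) :
    dblNum W x ^ 4 - W.b₄ * dblNum W x ^ 2 * dblDen W x ^ 2
      - 2 * W.b₆ * dblNum W x * dblDen W x ^ 3 - W.b₈ * dblDen W x ^ 4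
      - x * dblDen W x * (4 * dblNum W x ^ 3 + W.b₂ * dblNum W x ^ 2 * dblDen W x
      + 2 * W.b₄ * dblNum W x * dblDen W x ^ 2 + W.b₆ * dblDen W x ^ 3)
      = - (psi3 W x * psi5 W x) := by
  simp only [dblDen, dblNum, pre4, psi3, psi5]
  linear_combination (48*x^12 + 40*x^11*W.b₂ + 11*x^10*W.b₂^2 + 96*x^10*W.b₄ + x^9*W.b₂^3
    + 52*x^9*W.b₂*W.b₄ + 72*x^9*W.b₆ + 7*x^8*W.b₂^2*W.b₄ + 38*x^8*W.b₂*W.b₆ + 60*x^8*W.b₄^2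
    + 16*x^8*W.b₈ + 5*x^7*W.b₂^2*W.b₆ + 16*x^7*W.b₂*W.b₄^2 + 8*x^7*W.b₂*W.b₈ + 84*x^7*W.b₄*W.b₆
    + x^6*W.b₂^2*W.b₈ + 22*x^6*W.b₂*W.b₄*W.b₆ + 12*x^6*W.b₄^3 + 16*x^6*W.b₄*W.b₈ + 27*x^6*W.b₆^2
    + 4*x^5*W.b₂*W.b₄*W.b₈ + 7*x^5*W.b₂*W.b₆^2 + 24*x^5*W.b₄^2*W.b₆ + 8*x^5*W.b₆*W.b₈
    + 2*x^4*W.b₂*W.b₆*W.b₈ + 4*x^4*W.b₄^2*W.b₈ + 15*x^4*W.b₄*W.b₆^2 + 4*x^3*W.b₄*W.b₆*W.b₈
    + 3*x^3*W.b₆^3 + x^2*W.b₆^2*W.b₈) * W.b_relation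

/-- If `x₂ * f(x₁) = g(x₁)` then `f(x₂) * f(x₁)³ = pre4(x₁)²`. -/
lemma dblDen_mul_pow_eq (W : WeierstrassCurve F) {x₁ x₂ : F}
    (h : x₂ * dblDen W x₁ = dblNum W x₁) :
    dblDen W x₂ * dblDen W x₁ ^ 3 = pre4 W x₁ ^ 2 := by
  rw [← homDen_eq, ← h]
  simp only [dblDen]
  ring

/-- If `x₂ * f(x₁) = g(x₁)` then `(g(x₂) - x₁ * f(x₂)) * f(x₁)⁴ = - psi3(x₁) * psi5(x₁)`. -/
lemma dblNum_sub_mul_pow_eq (W : WeierstrassCurve F) {x₁ x₂ : F}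
    (h : x₂ * dblDen W x₁ = dblNum W x₁) :
    (dblNum W x₂ - x₁ * dblDen W x₂) * dblDen W x₁ ^ 4 = - (psi3 W x₁ * psi5 W x₁) := by
  rw [← homNum_sub_eq, ← h]
  simp only [dblDen, dblNum]
  ring

end Fermat.Agent.H38
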