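import Fermat.Agent.H38.FiveTorsion
import Mathlib.AlgebraicGeometry.EllipticCurve.DivisionPolynomial.Degree
import Mathlib.FieldTheory.IsAlgClosed.Basic

/-!
# Existence of a point of order 5 over an algebraically closed field (helper38, P-X015)
-/

set_option autoImplicit false
set_option linter.unusedSectionVars false

namespace Fermat.Agent.H38

open WeierstrassCurve WeierstrassCurve.Affine Polynomial

variable {F : Type*} [Field F]

lemma eval_Ψ₂Sq (W : WeierstrassCurve F) (x : F) : (W.Ψ₂Sq).eval x = dblDen W x := by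
  simp only [Ψ₂Sq, dblDen, eval_add, eval_mul, eval_pow, eval_C, eval_X]

lemma eval_Ψ₃ (W : WeierstrassCurve F) (x : F) : (W.Ψ₃).eval x = psi3 W x := by
  simp only [Ψ₃, psi3, eval_add, eval_mul, eval_pow, eval_C, eval_X, eval_ofNat]

lemma eval_preΨ₄ (W : WeierstrassCurve F) (x : F) : (W.preΨ₄).eval x = pre4 W x := by
  simp only [preΨ₄, pre4, eval_add, eval_mul, eval_pow, eval_C, eval_X, eval_ofNat]

lemma preΨ'_five (W : WeierstrassCurve F) :
    W.preΨ' 5 = W.preΨ₄ * W.Ψ₂Sq ^ 2 - W.Ψ₃ ^ 3 := by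
  have h := W.preΨ'_odd 0
  simp only [zero_add, Nat.reduceMul, Nat.reduceAdd, preΨ'_four, preΨ'_two, preΨ'_one,
    preΨ'_three, Even.zero, if_true, one_pow, mul_one, one_mul] at h
  exact h

lemma eval_preΨ'_five (W : WeierstrassCurve F) (x : F) : (W.preΨ' 5).eval x = psi5 W x := by
  rw [preΨ'_five, eval_sub, eval_mul, eval_pow, eval_pow, eval_Ψ₂Sq, eval_Ψ₃, eval_preΨ₄, psi5]

/-- Over an algebraically closed field every `x` is the `x`-coordinate of a point of the affine
curve. -/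
lemma exists_equation [IsAlgClosed F] (W : WeierstrassCurve F) (x : F) :
    ∃ y : F, W.toAffine.Equation x y := by
  have hdeg : (X ^ 2 + C (W.a₁ * x + W.a₃) * X
      - C (x ^ 3 + W.a₂ * x ^ 2 + W.a₄ * x + W.a₆) : F[X]).degree ≠ 0 := by
    have : (X ^ 2 + C (W.a₁ * x + W.a₃) * X
      - C (x ^ 3 + W.a₂ * x ^ 2 + W.a₄ * x + W.a₆) : F[X]).degree = 2 := by
      compute_degree!
    rw [this]; norm_num
  obtain ⟨y, hy⟩ := IsAlgClosed.exists_root _ hdeg
  refine ⟨y, ?_⟩
  rw [Affine.equation_iff]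
  simp only [IsRoot, eval_add, eval_sub, eval_mul, eval_pow, eval_C, eval_X] at hy
  linear_combination hy

variable [DecidableEq F]

/-- Existence of a point of exact order 5 on a Weierstrass curve with `Δ ≠ 0` over an
algebraically closed field in which `5 ≠ 0`. -/
theorem exists_five_torsion_point [IsAlgClosed F] (W : WeierstrassCurve F) (hΔ : W.Δ ≠ 0)
    (h5 : (5 : F) ≠ 0) : ∃ P : W.toAffine.Point, P ≠ 0 ∧ 5 • P = 0 := by
  have hpos : 0 < (W.preΨ' 5).natDegree :=
    W.natDegree_preΨ'_pos (by norm_num) (by exact_mod_cast h5)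
  have hdeg : (W.preΨ' 5).degree ≠ 0 := (natDegree_pos_iff_degree_pos.mp hpos).ne'
  obtain ⟨x, hx⟩ := IsAlgClosed.exists_root _ hdeg
  obtain ⟨y, hy⟩ := exists_equation W x
  have hns : W.toAffine.Nonsingular x y := (equation_iff_nonsingular_of_Δ_ne_zero hΔ).mp hy
  refine ⟨Point.some x y hns, Point.some_ne_zero _, ?_⟩
  apply five_nsmul_eq_zero_of_psi5 W hΔ (Point.some_ne_zero _)
  rw [xc_some, ← eval_preΨ'_five]
  exact hx

end Fermat.Agent.H38
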