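import Mathlib.Tactic.Ring
import Mathlib.Tactic.LinearCombination
import Mathlib.Data.Int.Cast.Lemmas

/-!
# A tiny reflection framework for polynomial identities in two variables (helper38)

`Poly2` is a computable dense representation of polynomials in two variables with integer
coefficients (lists of lists), with `+`, `*`, `-`, `^`, numerals, and an evaluation map
`Poly2.eval x y : Poly2 → R` into any commutative ring which commutes with all the operations.
A polynomial identity `p.eval x y = q.eval x y` then follows from the *computation*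
`(p - q).isZero = true`, which the kernel checks by evaluation (`decide +kernel`).  This keeps
proofs of identities with thousands of monomials small and fast.
-/

set_option autoImplicit false

namespace Fermat.Agent.H38

/-! ## One variable -/

/-- Addition of coefficient lists. -/
def p1add : List ℤ → List ℤ → List ℤ
  | [], q => q
  | a :: p, [] => a :: p
  | a :: p, b :: q => (a + b) :: p1add p q

/-- Multiplication of a coefficient list by an integer. -/
def p1smul (c : ℤ) : List ℤ → List ℤ
  | [] => []
  | a :: p => (c * a) :: p1smul c p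

/-- Multiplication of coefficient lists. -/
def p1mul : List ℤ → List ℤ → List ℤ
  | [], _ => []
  | a :: p, q => p1add (p1smul a q) (0 :: p1mul p q)

/-- All coefficients vanish. -/
def p1isZero : List ℤ → Bool
  | [] => true
  | a :: p => decide (a = 0) && p1isZero p

section eval1

variable {R : Type*} [CommRing R]

/-- Evaluation of a coefficient list (Horner). -/
def p1eval (x : R) : List ℤ → R
  | [] => 0
  | a :: p => (a : R) + x * p1eval x p

@[simp] lemma p1eval_nil (x : R) : p1eval x [] = 0 := rfl

@[simp] lemma p1eval_cons (x : R) (a : ℤ) (p : List ℤ) :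
    p1eval x (a :: p) = (a : R) + x * p1eval x p := rfl

lemma p1eval_add (x : R) (p q : List ℤ) :
    p1eval x (p1add p q) = p1eval x p + p1eval x q := by
  induction p generalizing q with
  | nil => simp [p1add]
  | cons a p ih =>
    cases q with
    | nil => simp [p1add]
    | cons b q =>
      simp only [p1add, p1eval_cons, ih, Int.cast_add]
      ring

lemma p1eval_smul (x : R) (c : ℤ) (p : List ℤ) :
    p1eval x (p1smul c p) = (c : R) * p1eval x p := by
  induction p with
  | nil => simp [p1smul]
  | cons a p ih =>
    simp only [p1smul, p1eval_cons, ih, Int.cast_mul]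
    ring

lemma p1eval_mul (x : R) (p q : List ℤ) :
    p1eval x (p1mul p q) = p1eval x p * p1eval x q := by
  induction p with
  | nil => simp [p1mul]
  | cons a p ih =>
    simp only [p1mul, p1eval_add, p1eval_smul, p1eval_cons, ih, Int.cast_zero]
    ring

lemma p1eval_of_isZero (x : R) (p : List ℤ) (h : p1isZero p = true) : p1eval x p = 0 := by
  induction p with
  | nil => rfl
  | cons a p ih =>
    simp only [p1isZero, Bool.and_eq_true, decide_eq_true_eq] at h
    simp [h.1, ih h.2]

end eval1

/-! ## Two variables -/

/-- Addition. -/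
def p2add : List (List ℤ) → List (List ℤ) → List (List ℤ)
  | [], q => q
  | a :: p, [] => a :: p
  | a :: p, b :: q => p1add a b :: p2add p q

/-- Multiplication by a polynomial in the first variable. -/
def p2smul (c : List ℤ) : List (List ℤ) → List (List ℤ)
  | [] => []
  | a :: p => p1mul c a :: p2smul c p

/-- Multiplication. -/
def p2mul : List (List ℤ) → List (List ℤ) → List (List ℤ)
  | [], _ => []
  | a :: p, q => p2add (p2smul a q) ([] :: p2mul p q)

/-- All coefficients vanish. -/
def p2isZero : List (List ℤ) → Bool
  | [] => true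
  | a :: p => p1isZero a && p2isZero p

section eval2

variable {R : Type*} [CommRing R]

/-- Evaluation (Horner in the second variable). -/
def p2eval (x y : R) : List (List ℤ) → R
  | [] => 0
  | a :: p => p1eval x a + y * p2eval x y p

@[simp] lemma p2eval_nil (x y : R) : p2eval x y [] = 0 := rfl

@[simp] lemma p2eval_cons (x y : R) (a : List ℤ) (p : List (List ℤ)) :
    p2eval x y (a :: p) = p1eval x a + y * p2eval x y p := rfl

lemma p2eval_add (x y : R) (p q : List (List ℤ)) :
    p2eval x y (p2add p q) = p2eval x y p + p2eval x y q := by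
  induction p generalizing q with
  | nil => simp [p2add]
  | cons a p ih =>
    cases q with
    | nil => simp [p2add]
    | cons b q =>
      simp only [p2add, p2eval_cons, ih, p1eval_add]
      ring

lemma p2eval_smul (x y : R) (c : List ℤ) (p : List (List ℤ)) :
    p2eval x y (p2smul c p) = p1eval x c * p2eval x y p := by
  induction p with
  | nil => simp [p2smul]
  | cons a p ih =>
    simp only [p2smul, p2eval_cons, ih, p1eval_mul]
    ring

lemma p2eval_mul (x y : R) (p q : List (List ℤ)) :
    p2eval x y (p2mul p q) = p2eval x y p * p2eval x y q := by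
  induction p with
  | nil => simp [p2mul]
  | cons a p ih =>
    simp only [p2mul, p2eval_add, p2eval_smul, p2eval_cons, ih, p1eval_nil]
    ring

lemma p2eval_of_isZero (x y : R) (p : List (List ℤ)) (h : p2isZero p = true) :
    p2eval x y p = 0 := by
  induction p with
  | nil => rfl
  | cons a p ih =>
    simp only [p2isZero, Bool.and_eq_true] at h
    simp [p1eval_of_isZero x a h.1, ih h.2]

end eval2

/-! ## The wrapper type with notation -/

/-- Polynomials in two variables with integer coefficients, dense representation. -/
structure Poly2 where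
  /-- The coefficients: the `j`-th entry is the coefficient of `Y ^ j`, a list whose `i`-th entry
  is the coefficient of `X ^ i`. -/
  c : List (List ℤ)

namespace Poly2

instance : Add Poly2 := ⟨fun p q => ⟨p2add p.c q.c⟩⟩
instance : Mul Poly2 := ⟨fun p q => ⟨p2mul p.c q.c⟩⟩
instance : Neg Poly2 := ⟨fun p => ⟨p2smul [-1] p.c⟩⟩
instance : Sub Poly2 := ⟨fun p q => ⟨p2add p.c (p2smul [-1] q.c)⟩⟩
instance (n : ℕ) : OfNat Poly2 n := ⟨⟨[[(n : ℤ)]]⟩⟩

/-- Powers, by repeated multiplication. -/
def npow (p : Poly2) : ℕ → Poly2
  | 0 => 1
  | n + 1 => npow p n * p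

instance : Pow Poly2 ℕ := ⟨npow⟩

/-- The first variable. -/
def X : Poly2 := ⟨[[0, 1]]⟩

/-- The second variable. -/
def Y : Poly2 := ⟨[[], [1]]⟩

/-- The zero test. -/
def isZero (p : Poly2) : Bool := p2isZero p.c

variable {R : Type*} [CommRing R]

/-- Evaluation at `(x, y)`. -/
def eval (x y : R) (p : Poly2) : R := p2eval x y p.c

lemma eval_add (x y : R) (p q : Poly2) : (p + q).eval x y = p.eval x y + q.eval x y :=
  p2eval_add x y p.c q.c

lemma eval_mul (x y : R) (p q : Poly2) : (p * q).eval x y = p.eval x y * q.eval x y :=
  p2eval_mul x y p.c q.c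

lemma eval_neg (x y : R) (p : Poly2) : (-p).eval x y = -p.eval x y := by
  change p2eval x y (p2smul [-1] p.c) = -p2eval x y p.c
  rw [p2eval_smul]
  simp

lemma eval_sub (x y : R) (p q : Poly2) : (p - q).eval x y = p.eval x y - q.eval x y := by
  change p2eval x y (p2add p.c (p2smul [-1] q.c)) = p2eval x y p.c - p2eval x y q.c
  rw [p2eval_add, p2eval_smul]
  simp
  ring

lemma eval_natCast (x y : R) (n : ℕ) : (⟨[[(n : ℤ)]]⟩ : Poly2).eval x y = (n : R) := by
  simp [eval]

lemma eval_ofNat (x y : R) (n : ℕ) [n.AtLeastTwo] :
    (ofNat(n) : Poly2).eval x y = (ofNat(n) : R) := by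
  change (⟨[[(n : ℤ)]]⟩ : Poly2).eval x y = _
  rw [eval_natCast]
  exact Nat.cast_ofNat

lemma eval_one (x y : R) : (1 : Poly2).eval x y = 1 := by
  change (⟨[[((1 : ℕ) : ℤ)]]⟩ : Poly2).eval x y = _
  rw [eval_natCast]
  exact Nat.cast_one

lemma eval_zero (x y : R) : (0 : Poly2).eval x y = 0 := by
  change (⟨[[((0 : ℕ) : ℤ)]]⟩ : Poly2).eval x y = _
  rw [eval_natCast]
  exact Nat.cast_zero

lemma eval_pow (x y : R) (p : Poly2) (n : ℕ) : (p ^ n).eval x y = p.eval x y ^ n := by
  induction n with
  | zero => exact (eval_one x y).trans (pow_zero _).symm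
  | succ n ih =>
    change (npow p n * p).eval x y = _
    rw [eval_mul, pow_succ]
    congr 1

lemma eval_X (x y : R) : X.eval x y = x := by
  simp [eval, X]

lemma eval_Y (x y : R) : Y.eval x y = y := by
  simp [eval, Y]

/-- **Reflection principle**: a polynomial identity follows from a computation. -/
theorem eval_eq_of_isZero (x y : R) {p q : Poly2} (h : (p - q).isZero = true) :
    p.eval x y = q.eval x y := by
  have h0 : (p - q).eval x y = 0 := p2eval_of_isZero x y _ h
  rw [eval_sub] at h0
  exact sub_eq_zero.mp h0

end Poly2

end Fermat.Agent.H38
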