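import Mathlib.Tactic.Ring
import Mathlib.Tactic.LinearCombination

/-!
# The Rubin-Silverberg mod-5 family in Tate coordinates: definitions (helper38, P-S52 WP-D0)

For a curve `E : y² = x³ - 27 c₄ x - 54 c₆` the family `E_t : y² = x³ - 27 C₄(t) x - 54 C₆(t)` of
curves with the same mod-5 representation has `C₄ = rsC4 c₄ c₆ t` (degree 20 in `t`),
`C₆ = rsC6 c₄ c₆ t` (degree 30) and `C₄³ - C₆² = (c₄³ - c₆²) D⁵` with `D = rsDisc c₄ c₆ t`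
(degree 12, the twisted icosahedral form).  All three have INTEGER coefficients, so they make
sense over any commutative ring.  In terms of `a = -27 c₄`, `b = -54 c₆`:
`D = 1 + 22 a t² - 220 b t³ - 165 a² t⁴ + ...`, `A = -27 C₄ = a - 30 b t - (190/3) a² t² + ...`,
`B = -54 C₆ = b + (20/3) a² t - 145 a b t² + ...`.

In homogeneous Tate coordinates `(n₀, m₀)` (`c₄ = hC4 n₀ m₀`, `c₆ = -hC6 n₀ m₀`, marked point of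
order five `(hX1 n₀ m₀, hY1 n₀ m₀) = (3 (n₀² - 6 n₀ m₀ + m₀²), -108 n₀ m₀²)`; in the
inhomogeneous notation of `Fermat.Agent.H38.TateFive`: `n₀ = s u`, `m₀ = u`) the family is a
pencil of fifth powers: with `X = 1 + 3 (n₀² + m₀²) t`, `Y = 18 n₀ m₀ t`,
`(X + √5 Y)⁵ = P + 5 Q √5`, `N = n₀ P - (11 n₀ + 2 m₀) Q`, `M = m₀ P - (2 n₀ - 11 m₀) Q` one has
`2 N - (11 ± 5√5) M = (2 n₀ - (11 ± 5√5) m₀) (X ± √5 Y)⁵`, and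
`C₄(t) = hC4 N M`, `C₆(t) = -hC6 N M`, `n₀ m₀ D(t) = N M (X² - 5 Y²)`
(proved in `Fermat.Agent.H38.RSDescentC4`, `RSDescentC6`, `RSDiscIdentity`).
-/

set_option autoImplicit false

namespace Fermat.Agent.H38

variable {R : Type*} [CommRing R]

/-! ## Homogeneous Tate forms -/

/-- Homogeneous Tate form of weight 4: `c₄` of the curve with Tate parameters `(n, m)`. -/
def hC4 (n m : R) : R := n ^ 4 - 12 * n ^ 3 * m + 14 * n ^ 2 * m ^ 2 + 12 * n * m ^ 3 + m ^ 4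

/-- Homogeneous Tate form of weight 6: `-c₆` of the curve with Tate parameters `(n, m)`. -/
def hC6 (n m : R) : R :=
  n ^ 6 - 18 * n ^ 5 * m + 75 * n ^ 4 * m ^ 2 + 75 * n ^ 2 * m ^ 4 + 18 * n * m ^ 5 + m ^ 6

/-- `x(P)` of the marked point of order five. -/
def hX1 (n m : R) : R := 3 * (n ^ 2 - 6 * n * m + m ^ 2)

/-- `y(P)` of the marked point of order five. -/
def hY1 (n m : R) : R := -108 * n * m ^ 2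

/-- `x(2P)` of the marked point of order five. -/
def hX2 (n m : R) : R := 3 * (n ^ 2 + 6 * n * m + m ^ 2)

/-- `y(2P)` of the marked point of order five. -/
def hY2 (n m : R) : R := 108 * n ^ 2 * m

/-- Slope of the tangent at `P`. -/
def hL1 (n m : R) : R := 3 * (m - n)

/-- Slope of the tangent at `2P`. -/
def hL2 (n m : R) : R := 3 * (m + n)

lemma hC4_hC6_disc (n m : R) :
    hC4 n m ^ 3 - hC6 n m ^ 2 = 1728 * (n * m) ^ 5 * (n ^ 2 - 11 * n * m - m ^ 2) := by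
  simp only [hC4, hC6]; ring

lemma h_equation1 (n m : R) :
    hY1 n m ^ 2 = hX1 n m ^ 3 + -27 * hC4 n m * hX1 n m + 54 * hC6 n m := by
  simp only [hY1, hX1, hC4, hC6]; ring

lemma h_equation2 (n m : R) :
    hY2 n m ^ 2 = hX2 n m ^ 3 + -27 * hC4 n m * hX2 n m + 54 * hC6 n m := by
  simp only [hY2, hX2, hC4, hC6]; ring

lemma h_slope1 (n m : R) : 2 * hY1 n m * hL1 n m = 3 * hX1 n m ^ 2 + -27 * hC4 n m := by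
  simp only [hY1, hX1, hL1, hC4]; ring

lemma h_slope2 (n m : R) : 2 * hY2 n m * hL2 n m = 3 * hX2 n m ^ 2 + -27 * hC4 n m := by
  simp only [hY2, hX2, hL2, hC4]; ring

lemma h_dbl_x1 (n m : R) : hX2 n m = hL1 n m ^ 2 - 2 * hX1 n m := by
  simp only [hX1, hX2, hL1]; ring

lemma h_dbl_y1 (n m : R) : hY2 n m = -(hL1 n m * (hX2 n m - hX1 n m) + hY1 n m) := by
  simp only [hX1, hX2, hY1, hY2, hL1]; ring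

lemma h_dbl_x2 (n m : R) : hX1 n m = hL2 n m ^ 2 - 2 * hX2 n m := by
  simp only [hX1, hX2, hL2]; ring

lemma h_dbl_y2 (n m : R) : -hY1 n m = -(hL2 n m * (hX1 n m - hX2 n m) + hY2 n m) := by
  simp only [hX1, hX2, hY1, hY2, hL2]; ring

/-- Doubling the marked point replaces the Tate parameters `(n, m)` by `(-m, n)`. -/
lemma h_double_params (n m : R) :
    hC4 (-m) n = hC4 n m ∧ hC6 (-m) n = hC6 n m ∧ hX1 (-m) n = hX2 n m ∧ hY1 (-m) n = hY2 n m ∧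
      hX2 (-m) n = hX1 n m ∧ hY2 (-m) n = -hY1 n m := by
  simp only [hC4, hC6, hX1, hX2, hY1, hY2]
  refine ⟨?_, ?_, ?_, ?_, ?_, ?_⟩ <;> ring

/-! ## The pencil of fifth powers -/

/-- `X = 1 + 3 (n₀² + m₀²) t`. -/
def rsX (n₀ m₀ t : R) : R := 1 + 3 * (n₀ ^ 2 + m₀ ^ 2) * t

/-- `Y = 18 n₀ m₀ t`. -/
def rsY (n₀ m₀ t : R) : R := 18 * n₀ * m₀ * t

/-- The rational part of `(X + √5 Y)⁵`. -/
def rsP (n₀ m₀ t : R) : R :=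
  rsX n₀ m₀ t ^ 5 + 50 * rsX n₀ m₀ t ^ 3 * rsY n₀ m₀ t ^ 2 + 125 * rsX n₀ m₀ t * rsY n₀ m₀ t ^ 4

/-- One fifth of the `√5`-part of `(X + √5 Y)⁵`. -/
def rsQ (n₀ m₀ t : R) : R :=
  rsX n₀ m₀ t ^ 4 * rsY n₀ m₀ t + 10 * rsX n₀ m₀ t ^ 2 * rsY n₀ m₀ t ^ 3 + 5 * rsY n₀ m₀ t ^ 5

/-- The Tate parameter `N(t)` of the member `E_t` of the family (a quintic in `t`). -/
def rsN (n₀ m₀ t : R) : R := n₀ * rsP n₀ m₀ t - (11 * n₀ + 2 * m₀) * rsQ n₀ m₀ t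

/-- The Tate parameter `M(t)` of the member `E_t` of the family (a quintic in `t`). -/
def rsM (n₀ m₀ t : R) : R := m₀ * rsP n₀ m₀ t - (2 * n₀ - 11 * m₀) * rsQ n₀ m₀ t

/-- The norm form `X² - 5 Y² = l₊ l₋` (a quadratic in `t`). -/
def rsL (n₀ m₀ t : R) : R := rsX n₀ m₀ t ^ 2 - 5 * rsY n₀ m₀ t ^ 2

@[simp] lemma rsX_zero (n₀ m₀ : R) : rsX n₀ m₀ 0 = 1 := by simp [rsX]
@[simp] lemma rsY_zero (n₀ m₀ : R) : rsY n₀ m₀ 0 = 0 := by simp [rsY]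
@[simp] lemma rsP_zero (n₀ m₀ : R) : rsP n₀ m₀ 0 = 1 := by simp [rsP]
@[simp] lemma rsQ_zero (n₀ m₀ : R) : rsQ n₀ m₀ 0 = 0 := by simp [rsQ]
@[simp] lemma rsN_zero (n₀ m₀ : R) : rsN n₀ m₀ 0 = n₀ := by simp [rsN]
@[simp] lemma rsM_zero (n₀ m₀ : R) : rsM n₀ m₀ 0 = m₀ := by simp [rsM]
@[simp] lemma rsL_zero (n₀ m₀ : R) : rsL n₀ m₀ 0 = 1 := by simp [rsL]

/-- `(X + r Y)⁵ = P + 5 Q r` when `r² = 5`. -/
lemma rs_pow_five {r : R} (hr : r ^ 2 = 5) (n₀ m₀ t : R) :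
    (rsX n₀ m₀ t + r * rsY n₀ m₀ t) ^ 5 = rsP n₀ m₀ t + 5 * rsQ n₀ m₀ t * r := by
  simp only [rsP, rsQ]
  generalize rsX n₀ m₀ t = X
  generalize rsY n₀ m₀ t = Y
  linear_combination (10 * X ^ 3 * Y ^ 2 + 5 * X * Y ^ 4 * (r ^ 2 + 5) + 10 * X ^ 2 * Y ^ 3 * r +
    Y ^ 5 * r * (r ^ 2 + 5)) * hr

/-- **The pencil relation.**  If `r² = 5` then
`2 N - (11 + 5 r) M = (2 n₀ - (11 + 5 r) m₀) (X + r Y)⁵`.  (Apply it to `r = ±√5`.) -/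
lemma rs_pencil {r : R} (hr : r ^ 2 = 5) (n₀ m₀ t : R) :
    2 * rsN n₀ m₀ t - (11 + 5 * r) * rsM n₀ m₀ t =
      (2 * n₀ - (11 + 5 * r) * m₀) * (rsX n₀ m₀ t + r * rsY n₀ m₀ t) ^ 5 := by
  rw [rs_pow_five hr]
  simp only [rsN, rsM]
  generalize rsP n₀ m₀ t = P
  generalize rsQ n₀ m₀ t = Q
  linear_combination (25 * m₀ * Q) * hr

/-- `l₊ l₋ = X² - 5 Y²` when `r² = 5`. -/
lemma rs_norm {r : R} (hr : r ^ 2 = 5) (n₀ m₀ t : R) :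
    (rsX n₀ m₀ t + r * rsY n₀ m₀ t) * (rsX n₀ m₀ t - r * rsY n₀ m₀ t) = rsL n₀ m₀ t := by
  simp only [rsL]
  linear_combination (-(rsY n₀ m₀ t) ^ 2) * hr

/-- Doubling the marked point (`(n₀, m₀) ↦ (-m₀, n₀)`) maps `(N, M)` to `(-M, N)`. -/
lemma rs_double_params (n₀ m₀ t : R) :
    rsN (-m₀) n₀ t = -rsM n₀ m₀ t ∧ rsM (-m₀) n₀ t = rsN n₀ m₀ t := by
  simp only [rsN, rsM, rsP, rsQ, rsX, rsY]
  constructor <;> ring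

/-- Negating the marked point (`(n₀, m₀) ↦ (-n₀, -m₀)`) maps `(N, M)` to `(-N, -M)`. -/
lemma rs_neg_params (n₀ m₀ t : R) :
    rsN (-n₀) (-m₀) t = -rsN n₀ m₀ t ∧ rsM (-n₀) (-m₀) t = -rsM n₀ m₀ t := by
  simp only [rsN, rsM, rsP, rsQ, rsX, rsY]
  constructor <;> ring

/-! ## The family: `D(t)`, `C₄(t)`, `C₆(t)` -/

/-- The twisted icosahedral form `D(t)` of degree 12: `Δ(E_t) = Δ(E) * D(t) ^ 5`. -/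
def rsDisc (c₄ c₆ t : R) : R :=
    1
    - 594 * c₄ * t ^ 2
    + 11880 * c₆ * t ^ 3
    - 120285 * c₄ ^ 2 * t ^ 4
    + 769824 * c₄ * c₆ * t ^ 5
    + 481140 * (9 * c₄ ^ 3 - 16 * c₆ ^ 2) * t ^ 6
    + 10392624 * c₄ ^ 2 * c₆ * t ^ 7
    - 3247695 * (135 * c₄ ^ 4 - 128 * c₄ * c₆ ^ 2) * t ^ 8
    + 34642080 * (81 * c₄ ^ 3 * c₆ - 80 * c₆ ^ 3) * t ^ 9
    - 35075106 * (225 * c₄ ^ 5 - 224 * c₄ ^ 2 * c₆ ^ 2) * t ^ 10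
    + 21257640 * (513 * c₄ ^ 4 * c₆ - 512 * c₄ * c₆ ^ 3) * t ^ 11
    + 531441 * (91125 * c₄ ^ 6 - 193536 * c₄ ^ 3 * c₆ ^ 2 + 102400 * c₆ ^ 4) * t ^ 12

/-- The `c₄`-invariant of the member `E_t` of the Rubin-Silverberg mod-5 family of the curve with invariants `c₄, c₆`. -/
def rsC4 (c₄ c₆ t : R) : R :=
    c₄
    - 60 * c₆ * t
    + 1710 * c₄ ^ 2 * t ^ 2
    - 30780 * c₄ * c₆ * t ^ 3
    - 23085 * (3 * c₄ ^ 3 - 20 * c₆ ^ 2) * t ^ 4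
    - 3767472 * c₄ ^ 2 * c₆ * t ^ 5
    + 1662120 * (45 * c₄ ^ 4 - 28 * c₄ * c₆ ^ 2) * t ^ 6
    - 9972720 * (57 * c₄ ^ 3 * c₆ - 40 * c₆ ^ 3) * t ^ 7
    - 48617010 * (135 * c₄ ^ 5 - 152 * c₄ ^ 2 * c₆ ^ 2) * t ^ 8
    + 194468040 * (783 * c₄ ^ 4 * c₆ - 800 * c₄ * c₆ ^ 3) * t ^ 9
    - 58340412 * (10125 * c₄ ^ 6 + 5688 * c₄ ^ 3 * c₆ ^ 2 - 16000 * c₆ ^ 4) * t ^ 10
    + 1750212360 * (5535 * c₄ ^ 5 * c₆ - 5552 * c₄ ^ 2 * c₆ ^ 3) * t ^ 11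
    - 3937977810 * (6075 * c₄ ^ 7 - 972 * c₄ ^ 4 * c₆ ^ 2 - 5120 * c₄ * c₆ ^ 4) * t ^ 12
    + 7270112880 * (7695 * c₄ ^ 6 * c₆ + 5088 * c₄ ^ 3 * c₆ ^ 3 - 12800 * c₆ ^ 5) * t ^ 13
    + 10905169320 * (91125 * c₄ ^ 8 - 217188 * c₄ ^ 5 * c₆ ^ 2 + 126080 * c₄ ^ 2 * c₆ ^ 4) * t ^ 14
    - 13086203184 * (455625 * c₄ ^ 7 * c₆ - 967608 * c₄ ^ 4 * c₆ ^ 3 + 512000 * c₄ * c₆ ^ 5) * t ^ 15
    - 12268315485 * (273375 * c₄ ^ 9 - 2507760 * c₄ ^ 6 * c₆ ^ 2 + 4282368 * c₄ ^ 3 * c₆ ^ 4 - 2048000 * c₆ ^ 6) * t ^ 16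
    - 147219785820 * (309825 * c₄ ^ 8 * c₆ - 627264 * c₄ ^ 5 * c₆ ^ 3 + 317440 * c₄ ^ 2 * c₆ ^ 5) * t ^ 17
    + 73609892910 * (4100625 * c₄ ^ 10 - 11489040 * c₄ ^ 7 * c₆ ^ 2 + 10665216 * c₄ ^ 4 * c₆ ^ 4 - 3276800 * c₄ * c₆ ^ 6) * t ^ 18
    - 23245229340 * (34718625 * c₄ ^ 9 * c₆ - 102220704 * c₄ ^ 6 * c₆ ^ 3 + 100270080 * c₄ ^ 3 * c₆ ^ 5 - 32768000 * c₆ ^ 7) * t ^ 19
    + 3486784401 * (184528125 * c₄ ^ 11 - 549301500 * c₄ ^ 8 * c₆ ^ 2 + 544997376 * c₄ ^ 5 * c₆ ^ 4 - 180224000 * c₄ ^ 2 * c₆ ^ 6) * t ^ 20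

/-- The `c₆`-invariant of the member `E_t` of the Rubin-Silverberg mod-5 family of the curve with invariants `c₄, c₆`. -/
def rsC6 (c₄ c₆ t : R) : R :=
    c₆
    - 90 * c₄ ^ 2 * t
    + 3915 * c₄ * c₆ * t ^ 2
    - 15660 * (2 * c₄ ^ 3 + 5 * c₆ ^ 2) * t ^ 3
    + 2219805 * c₄ ^ 2 * c₆ * t ^ 4
    - 380538 * (61 * c₄ ^ 4 + 30 * c₄ * c₆ ^ 2) * t ^ 5
    + 4756725 * (67 * c₄ ^ 3 * c₆ + 24 * c₆ ^ 3) * t ^ 6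
    + 342484200 * (12 * c₄ ^ 5 - 25 * c₄ ^ 2 * c₆ ^ 2) * t ^ 7
    - 2953926225 * (19 * c₄ ^ 4 * c₆ - 32 * c₄ * c₆ ^ 3) * t ^ 8
    - 1969284150 * (243 * c₄ ^ 6 - 420 * c₄ ^ 3 * c₆ ^ 2 + 320 * c₆ ^ 4) * t ^ 9
    + 19495913085 * (747 * c₄ ^ 5 * c₆ - 656 * c₄ ^ 2 * c₆ ^ 3) * t ^ 10
    - 106341344100 * (270 * c₄ ^ 7 + 2253 * c₄ ^ 4 * c₆ ^ 2 - 2432 * c₄ * c₆ ^ 4) * t ^ 11
    + 505121384475 * (4347 * c₄ ^ 6 * c₆ - 1696 * c₄ ^ 3 * c₆ ^ 3 - 2560 * c₆ ^ 5) * t ^ 12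
    - 27276554761650 * (405 * c₄ ^ 8 + 306 * c₄ ^ 5 * c₆ ^ 2 - 704 * c₄ ^ 2 * c₆ ^ 4) * t ^ 13
    + 695552146422075 * (297 * c₄ ^ 7 * c₆ - 296 * c₄ ^ 4 * c₆ ^ 3) * t ^ 14
    - 2225766868550640 * (513 * c₄ ^ 6 * c₆ ^ 2 - 512 * c₄ ^ 3 * c₆ ^ 4) * t ^ 15
    - 6259969317798675 * (1215 * c₄ ^ 8 * c₆ - 3264 * c₄ ^ 5 * c₆ ^ 3 + 2048 * c₄ ^ 2 * c₆ ^ 5) * t ^ 16
    + 2209400935693650 * (18225 * c₄ ^ 10 - 4536 * c₄ ^ 7 * c₆ ^ 2 - 54656 * c₄ ^ 4 * c₆ ^ 4 + 40960 * c₄ * c₆ ^ 6) * t ^ 17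
    - 368233489282275 * (1782405 * c₄ ^ 9 * c₆ - 2921184 * c₄ ^ 6 * c₆ ^ 3 + 319488 * c₄ ^ 3 * c₆ ^ 5 + 819200 * c₆ ^ 7) * t ^ 18
    + 697705558640100 * (546750 * c₄ ^ 11 + 5800167 * c₄ ^ 8 * c₆ ^ 2 - 13494528 * c₄ ^ 5 * c₆ ^ 4 + 7147520 * c₄ ^ 2 * c₆ ^ 6) * t ^ 19
    - 104655833796015 * (95772375 * c₄ ^ 10 * c₆ - 80789184 * c₄ ^ 7 * c₆ ^ 3 - 129672192 * c₄ ^ 4 * c₆ ^ 5 + 114688000 * c₄ * c₆ ^ 7) * t ^ 20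
    + 1046558337960150 * (22143375 * c₄ ^ 12 - 30756510 * c₄ ^ 9 * c₆ ^ 2 + 27077760 * c₄ ^ 6 * c₆ ^ 4 - 51232768 * c₄ ^ 3 * c₆ ^ 6 + 32768000 * c₆ ^ 8) * t ^ 21
    - 14128537562462025 * (3116475 * c₄ ^ 11 * c₆ + 3830328 * c₄ ^ 8 * c₆ ^ 3 - 17104896 * c₄ ^ 5 * c₆ ^ 5 + 10158080 * c₄ ^ 2 * c₆ ^ 7) * t ^ 22
    - 14742821804308200 * (49207500 * c₄ ^ 13 - 213374655 * c₄ ^ 10 * c₆ ^ 2 + 318574080 * c₄ ^ 7 * c₆ ^ 4 - 193728512 * c₄ ^ 4 * c₆ ^ 6 + 39321600 * c₄ * c₆ ^ 8) * t ^ 23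
    + 1842852725538525 * (779938875 * c₄ ^ 12 * c₆ - 3476968416 * c₄ ^ 9 * c₆ ^ 3 + 5401700352 * c₄ ^ 6 * c₆ ^ 5 - 3491102720 * c₄ ^ 3 * c₆ ^ 7 + 786432000 * c₆ ^ 9) * t ^ 24
    + 1326853962387738 * (11256215625 * c₄ ^ 14 - 44762422500 * c₄ ^ 11 * c₆ ^ 2 + 67387360320 * c₄ ^ 8 * c₆ ^ 4 - 45513793536 * c₄ ^ 5 * c₆ ^ 6 + 11632640000 * c₄ ^ 2 * c₆ ^ 8) * t ^ 25
    - 9951404717908035 * (10468895625 * c₄ ^ 13 * c₆ - 41806400400 * c₄ ^ 10 * c₆ ^ 3 + 62691729408 * c₄ ^ 7 * c₆ ^ 5 - 41839984640 * c₄ ^ 4 * c₆ ^ 7 + 10485760000 * c₄ * c₆ ^ 9) * t ^ 26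
    + 4422846541292460 * (16607531250 * c₄ ^ 15 - 13972469625 * c₄ ^ 12 * c₆ ^ 2 - 110010648960 * c₄ ^ 9 * c₆ ^ 4 + 247937200128 * c₄ ^ 6 * c₆ ^ 6 - 192990412800 * c₄ ^ 3 * c₆ ^ 8 + 52428800000 * c₆ ^ 10) * t ^ 27
    - 9951404717908035 * (49269009375 * c₄ ^ 14 * c₆ - 197055698400 * c₄ ^ 11 * c₆ ^ 3 + 295587408384 * c₄ ^ 8 * c₆ ^ 5 - 197083791360 * c₄ ^ 5 * c₆ ^ 7 + 49283072000 * c₄ ^ 2 * c₆ ^ 9) * t ^ 28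
    + 2058911320946490 * (373669453125 * c₄ ^ 16 - 1662450783750 * c₄ ^ 13 * c₆ ^ 2 + 2913163081920 * c₄ ^ 10 * c₆ ^ 4 - 2501423824896 * c₄ ^ 7 * c₆ ^ 6 + 1044814233600 * c₄ ^ 4 * c₆ ^ 8 - 167772160000 * c₄ * c₆ ^ 10) * t ^ 29
    - 205891132094649 * (4110363984375 * c₄ ^ 15 * c₆ - 19796866155000 * c₄ ^ 12 * c₆ ^ 3 + 38083944628224 * c₄ ^ 9 * c₆ ^ 5 - 36574189977600 * c₄ ^ 6 * c₆ ^ 7 + 17532190720000 * c₄ ^ 3 * c₆ ^ 9 - 3355443200000 * c₆ ^ 11) * t ^ 30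


@[simp] lemma rsDisc_zero (c₄ c₆ : R) : rsDisc c₄ c₆ 0 = 1 := by simp [rsDisc]
@[simp] lemma rsC4_zero (c₄ c₆ : R) : rsC4 c₄ c₆ 0 = c₄ := by simp [rsC4]
@[simp] lemma rsC6_zero (c₄ c₆ : R) : rsC6 c₄ c₆ 0 = c₆ := by simp [rsC6]

/-- The family is compatible with ring homomorphisms. -/
lemma map_rsDisc {S : Type*} [CommRing S] (f : R →+* S) (c₄ c₆ t : R) :
    f (rsDisc c₄ c₆ t) = rsDisc (f c₄) (f c₆) (f t) := by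
  simp only [rsDisc, map_add, map_sub, map_mul, map_pow, map_one, map_ofNat]

lemma map_rsC4 {S : Type*} [CommRing S] (f : R →+* S) (c₄ c₆ t : R) :
    f (rsC4 c₄ c₆ t) = rsC4 (f c₄) (f c₆) (f t) := by
  simp only [rsC4, map_add, map_sub, map_mul, map_pow, map_ofNat]

lemma map_rsC6 {S : Type*} [CommRing S] (f : R →+* S) (c₄ c₆ t : R) :
    f (rsC6 c₄ c₆ t) = rsC6 (f c₄) (f c₆) (f t) := by
  simp only [rsC6, map_add, map_sub, map_mul, map_pow, map_ofNat]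

lemma map_rsN {S : Type*} [CommRing S] (f : R →+* S) (n₀ m₀ t : R) :
    f (rsN n₀ m₀ t) = rsN (f n₀) (f m₀) (f t) := by
  simp only [rsN, rsP, rsQ, rsX, rsY, map_add, map_sub, map_mul, map_pow, map_one, map_ofNat]

lemma map_rsM {S : Type*} [CommRing S] (f : R →+* S) (n₀ m₀ t : R) :
    f (rsM n₀ m₀ t) = rsM (f n₀) (f m₀) (f t) := by
  simp only [rsM, rsP, rsQ, rsX, rsY, map_add, map_sub, map_mul, map_pow, map_one, map_ofNat]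

lemma map_rsL {S : Type*} [CommRing S] (f : R →+* S) (n₀ m₀ t : R) :
    f (rsL n₀ m₀ t) = rsL (f n₀) (f m₀) (f t) := by
  simp only [rsL, rsX, rsY, map_add, map_sub, map_mul, map_pow, map_one, map_ofNat]

end Fermat.Agent.H38
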