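import Fermat.Agent.H38.RSLits
import Mathlib.RingTheory.Polynomial.Basic
import Mathlib.RingTheory.Localization.FractionRing
import Mathlib.Algebra.MvPolynomial.CommRing
import Mathlib.Data.Fin.VecNotation

/-!
# Descent and discriminant identities for the Rubin-Silverberg mod-5 family
(helper38, P-S52 WP-D0/D2)

Over any commutative ring `R`:

* `rsC4_tate : rsC4 (hC4 n₀ m₀) (-hC6 n₀ m₀) t = hC4 (rsN n₀ m₀ t) (rsM n₀ m₀ t)`,
* `rsC6_tate : rsC6 (hC4 n₀ m₀) (-hC6 n₀ m₀) t = -hC6 (rsN n₀ m₀ t) (rsM n₀ m₀ t)`,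
* `rsDisc_tate : rsDisc (hC4 n₀ m₀) (-hC6 n₀ m₀) t * (n₀ * m₀) = rsN .. * rsM .. * rsL ..`,
* `rs_disc_identity : rsC4 c₄ c₆ t ^ 3 - rsC6 c₄ c₆ t ^ 2 = (c₄ ^ 3 - c₆ ^ 2) * rsDisc c₄ c₆ t ^ 5`,
* `rs_disc_identity_ab : 4 A³ + 27 B² = (4 a³ + 27 b²) D⁵` for `(a, b) = (-27 c₄, -54 c₆)`,
  `(A, B) = (-27 C₄(t), -54 C₆(t))`.

The two-variable cores are kernel computations (`Fermat.Agent.H38.RSLits`); the third variable
is restored by weighted homogeneity (in the universal case, where one may divide).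
-/

set_option autoImplicit false

namespace Fermat.Agent.H38

open Poly2

section core

variable {R : Type*} [CommRing R]

/-- The `c₄` descent identity at `(n₀, m₀) = (s, 1)`. -/
lemma rsC4_core (s τ : R) : rsC4 (hC4 s 1) (-hC6 s 1) τ = hC4 (rsN s 1 τ) (rsM s 1 τ) := by
  have eN := eval_eq_of_isZero s τ rsN_isZero
  have eM := eval_eq_of_isZero s τ rsM_isZero
  have e2 := eval_eq_of_isZero s τ rsM2_isZero
  have e3 := eval_eq_of_isZero s τ rsM3_isZero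
  have e4 := eval_eq_of_isZero s τ rsM4_isZero
  have f2 := eval_eq_of_isZero s τ rsH2_isZero
  have f3 := eval_eq_of_isZero s τ rsH3_isZero
  have f4 := eval_eq_of_isZero s τ rsH4_isZero
  have eC := eval_eq_of_isZero s τ rsC4_isZero
  simp only [eval_rsNp, eval_rsMp, eval_rsC4p, eval_hC4p, eval_hC6p, eval_neg, eval_add,
    eval_sub, eval_mul, eval_ofNat, eval_one, eval_X, eval_Y] at eN eM e2 e3 e4 f2 f3 f4 eC
  rw [eC, eN, eM, ← f4, ← f3, ← f2, ← e4, ← e3, ← e2]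
  simp only [hC4]
  ring

/-- The `c₆` descent identity at `(n₀, m₀) = (s, 1)`. -/
lemma rsC6_core (s τ : R) : rsC6 (hC4 s 1) (-hC6 s 1) τ = -hC6 (rsN s 1 τ) (rsM s 1 τ) := by
  have eN := eval_eq_of_isZero s τ rsN_isZero
  have eM := eval_eq_of_isZero s τ rsM_isZero
  have e2 := eval_eq_of_isZero s τ rsM2_isZero
  have e3 := eval_eq_of_isZero s τ rsM3_isZero
  have e4 := eval_eq_of_isZero s τ rsM4_isZero
  have e5 := eval_eq_of_isZero s τ rsM5_isZero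
  have e6 := eval_eq_of_isZero s τ rsM6_isZero
  have g2 := eval_eq_of_isZero s τ rsG2_isZero
  have g3 := eval_eq_of_isZero s τ rsG3_isZero
  have g4 := eval_eq_of_isZero s τ rsG4_isZero
  have g5 := eval_eq_of_isZero s τ rsG5_isZero
  have g6 := eval_eq_of_isZero s τ rsG6_isZero
  have eC := eval_eq_of_isZero s τ rsC6_isZero
  simp only [eval_rsNp, eval_rsMp, eval_rsC6p, eval_hC4p, eval_hC6p, eval_neg, eval_add,
    eval_sub, eval_mul, eval_ofNat, eval_one, eval_X, eval_Y]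
    at eN eM e2 e3 e4 e5 e6 g2 g3 g4 g5 g6 eC
  rw [eC, eN, eM, ← g6, ← g5, ← g4, ← g3, ← g2, ← e6, ← e5, ← e4, ← e3, ← e2]
  simp only [hC6]
  ring

/-- `D(t)` in Tate coordinates at `(n₀, m₀) = (s, 1)`. -/
lemma rsDisc_core (s τ : R) :
    rsDisc (hC4 s 1) (-hC6 s 1) τ * s = rsN s 1 τ * rsM s 1 τ * rsL s 1 τ := by
  have h := eval_eq_of_isZero s τ rsDisc_isZero
  simpa only [eval_rsNp, eval_rsMp, eval_rsLp, eval_rsDiscp, eval_hC4p, eval_hC6p, eval_neg,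
    eval_mul, eval_one, eval_X, eval_Y] using h

/-- The discriminant identity at `t = 1`. -/
lemma rs_disc_core (x y : R) :
    rsC4 x y 1 ^ 3 - rsC6 x y 1 ^ 2 = (x ^ 3 - y ^ 2) * rsDisc x y 1 ^ 5 := by
  have h := eval_eq_of_isZero x y rs_disc_isZero
  have h' : (rsC4p X Y 1 ^ 3 - rsC6p X Y 1 ^ 2).eval x y =
      ((X ^ 3 - Y ^ 2) * rsDiscp X Y 1 ^ 5).eval x y := h
  simpa only [eval_rsC4p, eval_rsC6p, eval_rsDiscp, eval_sub, eval_mul, eval_pow, eval_one,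
    eval_X, eval_Y] using h'

/-! ## Weighted homogeneity -/

lemma rsN_scale (s u t : R) : rsN (s * u) u t = u * rsN s 1 (u ^ 2 * t) := by
  simp only [rsN, rsP, rsQ, rsX, rsY]; ring

lemma rsM_scale (s u t : R) : rsM (s * u) u t = u * rsM s 1 (u ^ 2 * t) := by
  simp only [rsM, rsP, rsQ, rsX, rsY]; ring

lemma rsL_scale (s u t : R) : rsL (s * u) u t = rsL s 1 (u ^ 2 * t) := by
  simp only [rsL, rsX, rsY]; ring

lemma hC4_scale (u n m : R) : hC4 (u * n) (u * m) = u ^ 4 * hC4 n m := by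
  simp only [hC4]; ring

lemma hC6_scale (u n m : R) : hC6 (u * n) (u * m) = u ^ 6 * hC6 n m := by
  simp only [hC6]; ring

lemma rsC4_scale (u c₄ c₆ t : R) :
    rsC4 (u ^ 4 * c₄) (u ^ 6 * c₆) t = u ^ 4 * rsC4 c₄ c₆ (u ^ 2 * t) := by
  simp only [rsC4]; ring

lemma rsC6_scale (u c₄ c₆ t : R) :
    rsC6 (u ^ 4 * c₄) (u ^ 6 * c₆) t = u ^ 6 * rsC6 c₄ c₆ (u ^ 2 * t) := by
  simp only [rsC6]; ring

lemma rsDisc_scale (u c₄ c₆ t : R) :
    rsDisc (u ^ 4 * c₄) (u ^ 6 * c₆) t = rsDisc c₄ c₆ (u ^ 2 * t) := by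
  simp only [rsDisc]; ring

lemma rsC4_scale_t (c₄ c₆ t : R) : t ^ 2 * rsC4 c₄ c₆ t = rsC4 (t ^ 2 * c₄) (t ^ 3 * c₆) 1 := by
  simp only [rsC4]; ring

lemma rsC6_scale_t (c₄ c₆ t : R) : t ^ 3 * rsC6 c₄ c₆ t = rsC6 (t ^ 2 * c₄) (t ^ 3 * c₆) 1 := by
  simp only [rsC6]; ring

lemma rsDisc_scale_t (c₄ c₆ t : R) : rsDisc c₄ c₆ t = rsDisc (t ^ 2 * c₄) (t ^ 3 * c₆) 1 := by
  simp only [rsDisc]; ring

/-- The `c₄` descent identity at `(n₀, m₀) = (s u, u)`. -/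
theorem rsC4_tate' (s u t : R) :
    rsC4 (hC4 (s * u) u) (-hC6 (s * u) u) t = hC4 (rsN (s * u) u t) (rsM (s * u) u t) := by
  have h1 : hC4 (s * u) u = u ^ 4 * hC4 s 1 := by simp only [hC4]; ring
  have h2 : -hC6 (s * u) u = u ^ 6 * -hC6 s 1 := by simp only [hC6]; ring
  rw [h1, h2, rsC4_scale, rsC4_core, rsN_scale, rsM_scale, hC4_scale]

/-- The `c₆` descent identity at `(n₀, m₀) = (s u, u)`. -/
theorem rsC6_tate' (s u t : R) :
    rsC6 (hC4 (s * u) u) (-hC6 (s * u) u) t = -hC6 (rsN (s * u) u t) (rsM (s * u) u t) := by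
  have h1 : hC4 (s * u) u = u ^ 4 * hC4 s 1 := by simp only [hC4]; ring
  have h2 : -hC6 (s * u) u = u ^ 6 * -hC6 s 1 := by simp only [hC6]; ring
  rw [h1, h2, rsC6_scale, rsC6_core, rsN_scale, rsM_scale, hC6_scale]
  ring

/-- `D(t)` in Tate coordinates at `(n₀, m₀) = (s u, u)`. -/
theorem rsDisc_tate' (s u t : R) :
    rsDisc (hC4 (s * u) u) (-hC6 (s * u) u) t * (s * u * u) =
      rsN (s * u) u t * rsM (s * u) u t * rsL (s * u) u t := by
  have h1 : hC4 (s * u) u = u ^ 4 * hC4 s 1 := by simp only [hC4]; ring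
  have h2 : -hC6 (s * u) u = u ^ 6 * -hC6 s 1 := by simp only [hC6]; ring
  rw [h1, h2, rsDisc_scale, rsN_scale, rsM_scale, rsL_scale]
  linear_combination (u ^ 2) * rsDisc_core s (u ^ 2 * t)

/-- The discriminant identity over a ring without zero divisors. -/
lemma rs_disc_identity_of_noZeroDivisors [NoZeroDivisors R] (c₄ c₆ t : R) :
    rsC4 c₄ c₆ t ^ 3 - rsC6 c₄ c₆ t ^ 2 = (c₄ ^ 3 - c₆ ^ 2) * rsDisc c₄ c₆ t ^ 5 := by
  by_cases ht : t = 0
  · subst ht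
    simp
  · have h := rs_disc_core (t ^ 2 * c₄) (t ^ 3 * c₆)
    rw [← rsC4_scale_t, ← rsC6_scale_t, ← rsDisc_scale_t] at h
    have h6 : t ^ 6 ≠ 0 := pow_ne_zero _ ht
    apply mul_left_cancel₀ h6
    linear_combination h

end core

/-! ## The universal case -/

section universal

open MvPolynomial

variable {R : Type*} [CommRing R]

/-- **The discriminant identity** of the family: `C₄³ - C₆² = (c₄³ - c₆²) D⁵`. -/
theorem rs_disc_identity (c₄ c₆ t : R) :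
    rsC4 c₄ c₆ t ^ 3 - rsC6 c₄ c₆ t ^ 2 = (c₄ ^ 3 - c₆ ^ 2) * rsDisc c₄ c₆ t ^ 5 := by
  have key := rs_disc_identity_of_noZeroDivisors (R := MvPolynomial (Fin 3) ℤ) (X 0) (X 1) (X 2)
  have := congrArg (MvPolynomial.eval₂Hom (Int.castRingHom R) ![c₄, c₆, t]) key
  simpa only [map_sub, map_mul, map_pow, map_rsC4, map_rsC6, map_rsDisc, eval₂Hom_X',
    Matrix.cons_val_zero, Matrix.cons_val_one, Matrix.cons_val] using this

lemma map_hC4 {S : Type*} [CommRing S] (f : R →+* S) (n m : R) :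
    f (hC4 n m) = hC4 (f n) (f m) := by
  simp only [hC4, map_add, map_sub, map_mul, map_pow, map_ofNat]

lemma map_hC6 {S : Type*} [CommRing S] (f : R →+* S) (n m : R) :
    f (hC6 n m) = hC6 (f n) (f m) := by
  simp only [hC6, map_add, map_sub, map_mul, map_pow, map_ofNat]

/-- The descent identities over a field, `m₀ ≠ 0`. -/
lemma rs_tate_field {K : Type*} [Field K] (n₀ m₀ t : K) (hm : m₀ ≠ 0) :
    rsC4 (hC4 n₀ m₀) (-hC6 n₀ m₀) t = hC4 (rsN n₀ m₀ t) (rsM n₀ m₀ t) ∧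
    rsC6 (hC4 n₀ m₀) (-hC6 n₀ m₀) t = -hC6 (rsN n₀ m₀ t) (rsM n₀ m₀ t) ∧
    rsDisc (hC4 n₀ m₀) (-hC6 n₀ m₀) t * (n₀ * m₀) =
      rsN n₀ m₀ t * rsM n₀ m₀ t * rsL n₀ m₀ t := by
  have h1 := rsC4_tate' (n₀ / m₀) m₀ t
  have h2 := rsC6_tate' (n₀ / m₀) m₀ t
  have h3 := rsDisc_tate' (n₀ / m₀) m₀ t
  rw [div_mul_cancel₀ n₀ hm] at h1 h2 h3
  exact ⟨h1, h2, h3⟩

/-- The descent identities in the universal ring `ℤ[n₀, m₀, t]`. -/
lemma rs_tate_universal (x y z : MvPolynomial (Fin 3) ℤ) (hy : y ≠ 0) :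
    rsC4 (hC4 x y) (-hC6 x y) z = hC4 (rsN x y z) (rsM x y z) ∧
    rsC6 (hC4 x y) (-hC6 x y) z = -hC6 (rsN x y z) (rsM x y z) ∧
    rsDisc (hC4 x y) (-hC6 x y) z * (x * y) = rsN x y z * rsM x y z * rsL x y z := by
  have hinj : Function.Injective (algebraMap (MvPolynomial (Fin 3) ℤ)
      (FractionRing (MvPolynomial (Fin 3) ℤ))) :=
    IsFractionRing.injective _ _
  set φ : MvPolynomial (Fin 3) ℤ →+* FractionRing (MvPolynomial (Fin 3) ℤ) :=
    algebraMap _ _ with hφ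
  have hX1 : φ y ≠ 0 := (map_ne_zero_iff φ hinj).mpr hy
  obtain ⟨h1, h2, h3⟩ := rs_tate_field (φ x) (φ y) (φ z) hX1
  refine ⟨hinj ?_, hinj ?_, hinj ?_⟩
  · simpa only [map_rsC4, map_hC4, map_hC6, map_rsN, map_rsM, map_neg] using h1
  · simpa only [map_rsC6, map_hC4, map_hC6, map_rsN, map_rsM, map_neg] using h2
  · simpa only [map_rsDisc, map_hC4, map_hC6, map_rsN, map_rsM, map_rsL, map_neg, map_mul]
      using h3

/-- **Descent identity for `c₄`**: the member `E_t` of the family of the curve with Tate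
parameters `(n₀, m₀)` has Tate parameters `(N(t), M(t))`. -/
theorem rsC4_tate (n₀ m₀ t : R) :
    rsC4 (hC4 n₀ m₀) (-hC6 n₀ m₀) t = hC4 (rsN n₀ m₀ t) (rsM n₀ m₀ t) := by
  have := congrArg (MvPolynomial.eval₂Hom (Int.castRingHom R) ![n₀, m₀, t])
    (rs_tate_universal (X 0) (X 1) (X 2) (MvPolynomial.X_ne_zero 1)).1
  simpa only [map_rsC4, map_hC4, map_hC6, map_rsN, map_rsM, map_neg, eval₂Hom_X',
    Matrix.cons_val_zero, Matrix.cons_val_one, Matrix.cons_val] using this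

/-- **Descent identity for `c₆`.** -/
theorem rsC6_tate (n₀ m₀ t : R) :
    rsC6 (hC4 n₀ m₀) (-hC6 n₀ m₀) t = -hC6 (rsN n₀ m₀ t) (rsM n₀ m₀ t) := by
  have := congrArg (MvPolynomial.eval₂Hom (Int.castRingHom R) ![n₀, m₀, t])
    (rs_tate_universal (X 0) (X 1) (X 2) (MvPolynomial.X_ne_zero 1)).2.1
  simpa only [map_rsC6, map_hC4, map_hC6, map_rsN, map_rsM, map_neg, eval₂Hom_X',
    Matrix.cons_val_zero, Matrix.cons_val_one, Matrix.cons_val] using this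

/-- **`D(t)` in Tate coordinates**: `D n₀ m₀ = N M (X² - 5 Y²)`. -/
theorem rsDisc_tate (n₀ m₀ t : R) :
    rsDisc (hC4 n₀ m₀) (-hC6 n₀ m₀) t * (n₀ * m₀) =
      rsN n₀ m₀ t * rsM n₀ m₀ t * rsL n₀ m₀ t := by
  have := congrArg (MvPolynomial.eval₂Hom (Int.castRingHom R) ![n₀, m₀, t])
    (rs_tate_universal (X 0) (X 1) (X 2) (MvPolynomial.X_ne_zero 1)).2.2
  simpa only [map_rsDisc, map_hC4, map_hC6, map_rsN, map_rsM, map_rsL, map_neg, map_mul,
    eval₂Hom_X', Matrix.cons_val_zero, Matrix.cons_val_one, Matrix.cons_val] using this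

/-- The discriminant identity in the form `4 A³ + 27 B² = (4 a³ + 27 b²) D⁵` with
`(a, b) = (-27 c₄, -54 c₆)`, `(A, B) = (-27 C₄, -54 C₆)`. -/
theorem rs_disc_identity_ab (c₄ c₆ t : R) :
    4 * (-27 * rsC4 c₄ c₆ t) ^ 3 + 27 * (-54 * rsC6 c₄ c₆ t) ^ 2 =
      (4 * (-27 * c₄) ^ 3 + 27 * (-54 * c₆) ^ 2) * rsDisc c₄ c₆ t ^ 5 := by
  linear_combination (-78732 : R) * rs_disc_identity c₄ c₆ t

end universal

end Fermat.Agent.H38
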