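import Fermat.Agent.H38.TateFive
import Fermat.Agent.H38.RSDefs

/-!
# Tate normal form for points of order five, homogeneous version (helper38, P-S52 WP-D1)

Over a field `K` in which `2` and `3` are invertible, a nonzero point `P` with `5 • P = 0` on a
short Weierstrass curve `W : y² = x³ + a₄ x + a₆` has homogeneous Tate parameters `n m : K`, both
nonzero: `a₄ = -27 hC4 n m`, `a₆ = 54 hC6 n m`, `P = (hX1 n m, hY1 n m)`, `2P = (hX2 n m, hY2 n m)`.
Conversely every such pair gives a point killed by `5`.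
(`n = s u`, `m = u` in the notation of `Fermat.Agent.H38.TateFive`.)
-/

set_option autoImplicit false
set_option linter.unusedSectionVars false

namespace Fermat.Agent.H38

open WeierstrassCurve WeierstrassCurve.Affine

variable {K : Type*} [Field K] [DecidableEq K]

lemma tateA_eq_hC4 (s u : K) : tateA s u = -27 * hC4 (s * u) u := by
  simp only [tateA, tateC4, hC4]; ring

lemma tateB_eq_hC6 (s u : K) : tateB s u = 54 * hC6 (s * u) u := by
  simp only [tateB, tateC6, hC6]; ring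

lemma tateX1_eq_hX1 (s u : K) : tateX1 s u = hX1 (s * u) u := by
  simp only [tateX1, hX1]; ring

lemma tateY1_eq_hY1 (s u : K) : tateY1 s u = hY1 (s * u) u := by
  simp only [tateY1, hY1]; ring

lemma tateX2_eq_hX2 (s u : K) : tateX2 s u = hX2 (s * u) u := by
  simp only [tateX2, hX2]; ring

lemma tateY2_eq_hY2 (s u : K) : tateY2 s u = hY2 (s * u) u := by
  simp only [tateY2, hY2]; ring

/-- **Tate normal form for points of exact order five**, homogeneous parameters. -/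
theorem tate_hom_normal_form (h2 : (2 : K) ≠ 0) (h3 : (3 : K) ≠ 0)
    (W : WeierstrassCurve K) (ha1 : W.a₁ = 0) (ha2 : W.a₂ = 0) (ha3 : W.a₃ = 0)
    {P : W.toAffine.Point} (hP : P ≠ 0) (h5 : (5 : ℕ) • P = 0) :
    ∃ n m : K, n ≠ 0 ∧ m ≠ 0 ∧ W.a₄ = -27 * hC4 n m ∧ W.a₆ = 54 * hC6 n m ∧
      ∃ (h₁ : W.toAffine.Nonsingular (hX1 n m) (hY1 n m))
        (h₂ : W.toAffine.Nonsingular (hX2 n m) (hY2 n m)),
        P = Point.some _ _ h₁ ∧ (2 : ℕ) • P = Point.some _ _ h₂ := by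
  obtain ⟨s, u, hu, hs, ea, eb, h₁, h₂, e1, e2⟩ :=
    tate_normal_form_five_point h2 h3 W ha1 ha2 ha3 hP h5
  obtain ⟨h₁', e1'⟩ := some_eq_some_of_eq W h₁ (tateX1_eq_hX1 s u) (tateY1_eq_hY1 s u)
  obtain ⟨h₂', e2'⟩ := some_eq_some_of_eq W h₂ (tateX2_eq_hX2 s u) (tateY2_eq_hY2 s u)
  exact ⟨s * u, u, mul_ne_zero hs hu, hu, by rw [ea, tateA_eq_hC4], by rw [eb, tateB_eq_hC6],
    h₁', h₂', e1.trans e1', e2.trans e2'⟩

/-- **Converse of the Tate normal form**, homogeneous parameters: for nonzero `n, m`, on the curve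
`y² = x³ - 27 hC4 n m x + 54 hC6 n m` the point `(hX1 n m, hY1 n m)` is nonsingular, its double
is `(hX2 n m, hY2 n m)`, and it is killed by `5`. -/
theorem tate_hom_point_five (h2 : (2 : K) ≠ 0) (h3 : (3 : K) ≠ 0) (W : WeierstrassCurve K)
    (ha1 : W.a₁ = 0) (ha2 : W.a₂ = 0) (ha3 : W.a₃ = 0) {n m : K} (hn : n ≠ 0) (hm : m ≠ 0)
    (ha4 : W.a₄ = -27 * hC4 n m) (ha6 : W.a₆ = 54 * hC6 n m) :
    ∃ (h₁ : W.toAffine.Nonsingular (hX1 n m) (hY1 n m))
      (h₂ : W.toAffine.Nonsingular (hX2 n m) (hY2 n m)),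
      (2 : ℕ) • (Point.some _ _ h₁ : W.toAffine.Point) = Point.some _ _ h₂ ∧
      (5 : ℕ) • (Point.some _ _ h₁ : W.toAffine.Point) = 0 := by
  have h108 : (108 : K) ≠ 0 := by
    have : (108 : K) = 2 ^ 2 * 3 ^ 3 := by norm_num
    rw [this]
    exact mul_ne_zero (pow_ne_zero _ h2) (pow_ne_zero _ h3)
  have hy1 : hY1 n m ≠ 0 := by
    simp only [hY1]
    exact mul_ne_zero (mul_ne_zero (neg_ne_zero.mpr h108) hn) (pow_ne_zero _ hm)
  have hy2 : hY2 n m ≠ 0 := by
    simp only [hY2]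
    exact mul_ne_zero (mul_ne_zero h108 (pow_ne_zero _ hn)) hm
  have h₁ : W.toAffine.Nonsingular (hX1 n m) (hY1 n m) :=
    nonsingular_short h2 W ha1 ha2 ha3 (by rw [ha4, ha6]; exact h_equation1 n m) hy1
  obtain ⟨h₂, e2⟩ := two_nsmul_short h2 W ha1 ha2 ha3 h₁ hy1
    (by rw [ha4]; exact h_slope1 n m) (h_dbl_x1 n m) (h_dbl_y1 n m)
  obtain ⟨h₃, e4⟩ := two_nsmul_short h2 W ha1 ha2 ha3 h₂ hy2
    (by rw [ha4]; exact h_slope2 n m) (h_dbl_x2 n m) (h_dbl_y2 n m)
  refine ⟨h₁, h₂, e2, ?_⟩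
  have e5 : (5 : ℕ) • (Point.some _ _ h₁ : W.toAffine.Point) =
      (2 : ℕ) • ((2 : ℕ) • (Point.some _ _ h₁ : W.toAffine.Point)) + Point.some _ _ h₁ := by
    abel
  rw [e5, e2, e4]
  apply Point.add_of_Y_eq rfl
  simp only [negY, ha1, ha3]
  ring

/-- The homogeneous Tate parameters are determined by the point and its double. -/
lemma tate_hom_params_unique (h2 : (2 : K) ≠ 0) (h3 : (3 : K) ≠ 0) {n m n' m' : K}
    (hn : n ≠ 0) (hm : m ≠ 0) (hx1 : hX1 n m = hX1 n' m') (hy1 : hY1 n m = hY1 n' m')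
    (hx2 : hX2 n m = hX2 n' m') : n = n' ∧ m = m' := by
  have h36 : (36 : K) ≠ 0 := by
    have : (36 : K) = 2 ^ 2 * 3 ^ 2 := by norm_num
    rw [this]
    exact mul_ne_zero (pow_ne_zero _ h2) (pow_ne_zero _ h3)
  have h108 : (108 : K) ≠ 0 := by
    have : (108 : K) = 2 ^ 2 * 3 ^ 3 := by norm_num
    rw [this]
    exact mul_ne_zero (pow_ne_zero _ h2) (pow_ne_zero _ h3)
  -- `n m = n' m'` and `n m² = n' m'²`
  have e1 : n * m = n' * m' := by
    have : 36 * (n * m) = 36 * (n' * m') := by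
      simp only [hX1, hX2] at hx1 hx2
      linear_combination hx2 - hx1
    exact mul_left_cancel₀ h36 this
  have e2 : n * m ^ 2 = n' * m' ^ 2 := by
    have : -108 * (n * m ^ 2) = -108 * (n' * m' ^ 2) := by
      simp only [hY1] at hy1
      linear_combination hy1
    exact mul_left_cancel₀ (neg_ne_zero.mpr h108) this
  have hnm : n * m ≠ 0 := mul_ne_zero hn hm
  have em : m = m' := by
    have : (n * m) * m = (n * m) * m' := by
      calc (n * m) * m = n * m ^ 2 := by ring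
        _ = n' * m' ^ 2 := e2
        _ = (n' * m') * m' := by ring
        _ = (n * m) * m' := by rw [e1]
    exact mul_left_cancel₀ hnm this
  refine ⟨?_, em⟩
  rw [← em] at e1
  exact mul_right_cancel₀ hm e1

end Fermat.Agent.H38
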