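import Fermat.Agent.H38.RSDescent
import Fermat.Agent.H38.TateHom
import Fermat.Agent.H26.RatFuncSpec

/-!
# Lifting 5-torsion points to sections of the Rubin-Silverberg family (helper38, P-S52 WP-D3)

Let `K` be a field in which `2` and `3` are invertible, `c₄ c₆ : K`, and let
`rsCurve K c₄ c₆ : WeierstrassCurve K[X]` be the family
`E_t : y² = x³ - 27 rsC4 c₄ c₆ t x - 54 rsC6 c₄ c₆ t`.  Every point `P` of the fibre at `t = 0`
with `5 • P = 0` is the specialisation of a point `S` of the generic fibre (over `RatFunc K`) with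
`5 • S = 0`: if `(n, m)` are homogeneous Tate parameters of `P`, then
`S = (hX1 N M, hY1 N M)` with `N = rsN n m t`, `M = rsM n m t`.
-/

set_option autoImplicit false

namespace Fermat.Agent.H38

open WeierstrassCurve WeierstrassCurve.Affine Polynomial

section maps

variable {R S : Type*} [CommRing R] [CommRing S]

lemma map_hX1 (f : R →+* S) (n m : R) : f (hX1 n m) = hX1 (f n) (f m) := by
  simp only [hX1, map_add, map_sub, map_mul, map_pow, map_ofNat]

lemma map_hY1 (f : R →+* S) (n m : R) : f (hY1 n m) = hY1 (f n) (f m) := by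
  simp only [hY1, map_neg, map_mul, map_pow, map_ofNat]

lemma map_hX2 (f : R →+* S) (n m : R) : f (hX2 n m) = hX2 (f n) (f m) := by
  simp only [hX2, map_add, map_mul, map_pow, map_ofNat]

lemma map_hY2 (f : R →+* S) (n m : R) : f (hY2 n m) = hY2 (f n) (f m) := by
  simp only [hY2, map_mul, map_pow, map_ofNat]

end maps

variable (K : Type*) [Field K]

/-- The Rubin-Silverberg family as a Weierstrass curve over `K[X]`. -/
noncomputable def rsCurve (c₄ c₆ : K) : WeierstrassCurve K[X] :=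
  ⟨0, 0, 0, -27 * rsC4 (C c₄) (C c₆) X, -54 * rsC6 (C c₄) (C c₆) X⟩

variable {K}

/-- The Tate parameter `N(t)` as a polynomial. -/
noncomputable def rsNpoly (n m : K) : K[X] := rsN (C n) (C m) X

/-- The Tate parameter `M(t)` as a polynomial. -/
noncomputable def rsMpoly (n m : K) : K[X] := rsM (C n) (C m) X

lemma rsNpoly_eval (n m t : K) : (rsNpoly n m).eval t = rsN n m t := by
  have := map_rsN (evalRingHom t) (C n) (C m) X
  simpa [rsNpoly] using this

lemma rsMpoly_eval (n m t : K) : (rsMpoly n m).eval t = rsM n m t := by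
  have := map_rsM (evalRingHom t) (C n) (C m) X
  simpa [rsMpoly] using this

lemma rsNpoly_ne_zero {n : K} (m : K) (hn : n ≠ 0) : rsNpoly n m ≠ 0 := by
  intro h
  apply hn
  have := rsNpoly_eval n m 0
  rw [h, eval_zero, rsN_zero] at this
  exact this.symm

lemma rsMpoly_ne_zero (n : K) {m : K} (hm : m ≠ 0) : rsMpoly n m ≠ 0 := by
  intro h
  apply hm
  have := rsMpoly_eval n m 0
  rw [h, eval_zero, rsM_zero] at this
  exact this.symm

/-- In the family of the curve with Tate parameters `(n, m)`: `C₄(t) = hC4 N M` as polynomials. -/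
lemma rsC4_poly_tate (n m : K) :
    rsC4 (C (hC4 n m)) (C (-hC6 n m)) X = hC4 (rsNpoly n m) (rsMpoly n m) := by
  have := rsC4_tate (C n) (C m) (X : K[X])
  rw [← map_hC4 (C : K →+* K[X]), ← map_hC6 (C : K →+* K[X]), ← map_neg] at this
  exact this

/-- In the family of the curve with Tate parameters `(n, m)`: `C₆(t) = -hC6 N M` as
polynomials. -/
lemma rsC6_poly_tate (n m : K) :
    rsC6 (C (hC4 n m)) (C (-hC6 n m)) X = -hC6 (rsNpoly n m) (rsMpoly n m) := by
  have := rsC6_tate (C n) (C m) (X : K[X])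
  rw [← map_hC4 (C : K →+* K[X]), ← map_hC6 (C : K →+* K[X]), ← map_neg] at this
  exact this

variable [DecidableEq K] [DecidableEq (RatFunc K)]

/-- **The lifting property of the Rubin-Silverberg family**: every point of the fibre at `t = 0`
killed by `5` is the specialisation of a point of the generic fibre killed by `5`. -/
theorem rs_hlift (h2 : (2 : K) ≠ 0) (h3 : (3 : K) ≠ 0) (c₄ c₆ : K)
    (h₀ : (rsCurve K c₄ c₆).Δ.eval (0 : K) ≠ 0)
    (P : ((rsCurve K c₄ c₆).map (evalRingHom (0 : K))).toAffine.Point)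
    (hP : (5 : ℕ) • P = 0) :
    ∃ S : ((rsCurve K c₄ c₆).map (algebraMap K[X] (RatFunc K))).toAffine.Point,
      (5 : ℕ) • S = 0 ∧ Fermat.Agent.H26.specHom (rsCurve K c₄ c₆) 0 h₀ S = P := by
  by_cases hP0 : P = 0
  · exact ⟨0, nsmul_zero _, by rw [map_zero, hP0]⟩
  -- the fibre at `0`
  have ha1 : ((rsCurve K c₄ c₆).map (evalRingHom (0 : K))).a₁ = 0 := by simp [rsCurve]
  have ha2 : ((rsCurve K c₄ c₆).map (evalRingHom (0 : K))).a₂ = 0 := by simp [rsCurve]
  have ha3 : ((rsCurve K c₄ c₆).map (evalRingHom (0 : K))).a₃ = 0 := by simp [rsCurve]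
  have ha4 : ((rsCurve K c₄ c₆).map (evalRingHom (0 : K))).a₄ = -27 * c₄ := by
    have := map_rsC4 (evalRingHom (0 : K)) (C c₄) (C c₆) X
    simp only [coe_evalRingHom, eval_C, eval_X, rsC4_zero] at this
    simp [rsCurve, this]
  have ha6 : ((rsCurve K c₄ c₆).map (evalRingHom (0 : K))).a₆ = -54 * c₆ := by
    have := map_rsC6 (evalRingHom (0 : K)) (C c₄) (C c₆) X
    simp only [coe_evalRingHom, eval_C, eval_X, rsC6_zero] at this
    simp [rsCurve, this]
  obtain ⟨n, m, hn, hm, e4, e6, h₁, -, eP, -⟩ :=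
    tate_hom_normal_form h2 h3 _ ha1 ha2 ha3 hP0 hP
  have h27 : (27 : K) ≠ 0 := by
    have : (27 : K) = 3 ^ 3 := by norm_num
    rw [this]; exact pow_ne_zero _ h3
  have h54 : (54 : K) ≠ 0 := by
    have : (54 : K) = 2 * 3 ^ 3 := by norm_num
    rw [this]; exact mul_ne_zero h2 (pow_ne_zero _ h3)
  have ec4 : c₄ = hC4 n m := by
    have : -27 * c₄ = -27 * hC4 n m := by rw [← ha4, e4]
    exact mul_left_cancel₀ (neg_ne_zero.mpr h27) this
  have ec6 : c₆ = -hC6 n m := by
    have : -54 * c₆ = -54 * -hC6 n m := by rw [← ha6, e6]; ring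
    exact mul_left_cancel₀ (neg_ne_zero.mpr h54) this
  -- the generic fibre
  set φ : K[X] →+* RatFunc K := algebraMap K[X] (RatFunc K) with hφ
  have hinj : Function.Injective φ := IsFractionRing.injective K[X] (RatFunc K)
  have hN : φ (rsNpoly n m) ≠ 0 := (map_ne_zero_iff φ hinj).mpr (rsNpoly_ne_zero m hn)
  have hM : φ (rsMpoly n m) ≠ 0 := (map_ne_zero_iff φ hinj).mpr (rsMpoly_ne_zero n hm)
  have hb1 : ((rsCurve K c₄ c₆).map φ).a₁ = 0 := by simp [rsCurve]
  have hb2 : ((rsCurve K c₄ c₆).map φ).a₂ = 0 := by simp [rsCurve]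
  have hb3 : ((rsCurve K c₄ c₆).map φ).a₃ = 0 := by simp [rsCurve]
  have hb4 : ((rsCurve K c₄ c₆).map φ).a₄ =
      -27 * hC4 (φ (rsNpoly n m)) (φ (rsMpoly n m)) := by
    have e : ((rsCurve K c₄ c₆).map φ).a₄ = φ (-27 * rsC4 (C c₄) (C c₆) X) := rfl
    rw [e, map_mul, map_neg, map_ofNat, ec4, ec6, rsC4_poly_tate, map_hC4]
  have hb6 : ((rsCurve K c₄ c₆).map φ).a₆ =
      54 * hC6 (φ (rsNpoly n m)) (φ (rsMpoly n m)) := by
    have e : ((rsCurve K c₄ c₆).map φ).a₆ = φ (-54 * rsC6 (C c₄) (C c₆) X) := rfl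
    rw [e, map_mul, map_neg, map_ofNat, ec4, ec6, rsC6_poly_tate, map_neg, map_hC6]
    ring
  have h2' : (2 : RatFunc K) ≠ 0 := by
    rw [← map_ofNat (algebraMap K (RatFunc K)) 2]
    exact (map_ne_zero_iff _ (algebraMap K (RatFunc K)).injective).mpr h2
  have h3' : (3 : RatFunc K) ≠ 0 := by
    rw [← map_ofNat (algebraMap K (RatFunc K)) 3]
    exact (map_ne_zero_iff _ (algebraMap K (RatFunc K)).injective).mpr h3
  obtain ⟨g₁, -, -, e5⟩ := tate_hom_point_five h2' h3' _ hb1 hb2 hb3 hN hM hb4 hb6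
  -- present the section with polynomial coordinates
  obtain ⟨g₁', eS⟩ := some_eq_some_of_eq _ g₁
    (map_hX1 φ (rsNpoly n m) (rsMpoly n m)).symm (map_hY1 φ (rsNpoly n m) (rsMpoly n m)).symm
  refine ⟨Point.some _ _ g₁, e5, ?_⟩
  rw [eS]
  obtain ⟨k, ek⟩ := Fermat.Agent.H26.specHom_some_poly (rsCurve K c₄ c₆) 0 h₀ g₁'
  rw [ek, eP]
  have ex : (hX1 (rsNpoly n m) (rsMpoly n m)).eval 0 = hX1 n m := by
    have := map_hX1 (evalRingHom (0 : K)) (rsNpoly n m) (rsMpoly n m)
    simpa only [coe_evalRingHom, rsNpoly_eval, rsMpoly_eval, rsN_zero, rsM_zero] using this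
  have ey : (hY1 (rsNpoly n m) (rsMpoly n m)).eval 0 = hY1 n m := by
    have := map_hY1 (evalRingHom (0 : K)) (rsNpoly n m) (rsMpoly n m)
    simpa only [coe_evalRingHom, rsNpoly_eval, rsMpoly_eval, rsN_zero, rsM_zero] using this
  obtain ⟨k', ek'⟩ := some_eq_some_of_eq _ k ex ey
  rw [ek']

end Fermat.Agent.H38
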