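import Fermat.Agent.H38.RSHlift
import Fermat.Agent.H46.S52Hlift

/-!
# The lifting statement of P-S52 (helper38, WP-D3)

`Fermat.Agent.H46.RsHliftStatement` holds: it is `Fermat.Agent.H38.rs_hlift` over `ℚ̄`.
-/

set_option autoImplicit false

namespace Fermat.Agent.H38

open Fermat.Agent.H46

/-- **WP-D of P-S52**: the lifting statement for the Rubin-Silverberg family over `ℚ̄`. -/
theorem rsHliftStatement [DecidableEq (RatFunc QbarS)] : RsHliftStatement := by
  intro c₄ c₆ _ h₀ P hP
  exact rs_hlift (K := QbarS) (by norm_num) (by norm_num) (c₄ : QbarS) (c₆ : QbarS) h₀ P hP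

end Fermat.Agent.H38
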