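import Fermat.Agent.H38.Poly2
import Fermat.Agent.H38.RSDefs

/-!
# `Poly2` copies of the Rubin-Silverberg family definitions (helper38, P-S52 WP-D2)

Copies `hC4p`, `rsNp`, `rsC4p`, ... of the definitions of `Fermat.Agent.H38.RSDefs` on the
computable type `Poly2`, with the lemmas saying that `Poly2.eval` maps them to the originals.
-/

set_option autoImplicit false

namespace Fermat.Agent.H38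

open Poly2

/-! ## `Poly2` copies of the definitions -/

/-- `Poly2` copy of `hC4`. -/
def hC4p (n m : Poly2) : Poly2 :=
  n ^ 4 - 12 * n ^ 3 * m + 14 * n ^ 2 * m ^ 2 + 12 * n * m ^ 3 + m ^ 4

/-- `Poly2` copy of `hC6`. -/
def hC6p (n m : Poly2) : Poly2 :=
  n ^ 6 - 18 * n ^ 5 * m + 75 * n ^ 4 * m ^ 2 + 75 * n ^ 2 * m ^ 4 + 18 * n * m ^ 5 + m ^ 6

/-- `Poly2` copy of `rsX`. -/
def rsXp (n₀ m₀ t : Poly2) : Poly2 := 1 + 3 * (n₀ ^ 2 + m₀ ^ 2) * t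

/-- `Poly2` copy of `rsY`. -/
def rsYp (n₀ m₀ t : Poly2) : Poly2 := 18 * n₀ * m₀ * t

/-- `Poly2` copy of `rsP`. -/
def rsPp (n₀ m₀ t : Poly2) : Poly2 :=
  rsXp n₀ m₀ t ^ 5 + 50 * rsXp n₀ m₀ t ^ 3 * rsYp n₀ m₀ t ^ 2 +
    125 * rsXp n₀ m₀ t * rsYp n₀ m₀ t ^ 4

/-- `Poly2` copy of `rsQ`. -/
def rsQp (n₀ m₀ t : Poly2) : Poly2 :=
  rsXp n₀ m₀ t ^ 4 * rsYp n₀ m₀ t + 10 * rsXp n₀ m₀ t ^ 2 * rsYp n₀ m₀ t ^ 3 +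
    5 * rsYp n₀ m₀ t ^ 5

/-- `Poly2` copy of `rsN`. -/
def rsNp (n₀ m₀ t : Poly2) : Poly2 := n₀ * rsPp n₀ m₀ t - (11 * n₀ + 2 * m₀) * rsQp n₀ m₀ t

/-- `Poly2` copy of `rsM`. -/
def rsMp (n₀ m₀ t : Poly2) : Poly2 := m₀ * rsPp n₀ m₀ t - (2 * n₀ - 11 * m₀) * rsQp n₀ m₀ t

/-- `Poly2` copy of `rsL`. -/
def rsLp (n₀ m₀ t : Poly2) : Poly2 := rsXp n₀ m₀ t ^ 2 - 5 * rsYp n₀ m₀ t ^ 2

/-- `Poly2` copy of `rsDisc`. -/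
def rsDiscp (c₄ c₆ t : Poly2) : Poly2 :=
    1
    - 594 * c₄ * t ^ 2
    + 11880 * c₆ * t ^ 3
    - 120285 * c₄ ^ 2 * t ^ 4
    + 769824 * c₄ * c₆ * t ^ 5
    + 481140 * (9 * c₄ ^ 3 - 16 * c₆ ^ 2) * t ^ 6
    + 10392624 * c₄ ^ 2 * c₆ * t ^ 7
    - 3247695 * (135 * c₄ ^ 4 - 128 * c₄ * c₆ ^ 2) * t ^ 8
    + 34642080 * (81 * c₄ ^ 3 * c₆ - 80 * c₆ ^ 3) * t ^ 9
    - 35075106 * (225 * c₄ ^ 5 - 224 * c₄ ^ 2 * c₆ ^ 2) * t ^ 10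
    + 21257640 * (513 * c₄ ^ 4 * c₆ - 512 * c₄ * c₆ ^ 3) * t ^ 11
    + 531441 * (91125 * c₄ ^ 6 - 193536 * c₄ ^ 3 * c₆ ^ 2 + 102400 * c₆ ^ 4) * t ^ 12

/-- `Poly2` copy of `rsC4`. -/
def rsC4p (c₄ c₆ t : Poly2) : Poly2 :=
    c₄
    - 60 * c₆ * t
    + 1710 * c₄ ^ 2 * t ^ 2
    - 30780 * c₄ * c₆ * t ^ 3
    - 23085 * (3 * c₄ ^ 3 - 20 * c₆ ^ 2) * t ^ 4
    - 3767472 * c₄ ^ 2 * c₆ * t ^ 5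
    + 1662120 * (45 * c₄ ^ 4 - 28 * c₄ * c₆ ^ 2) * t ^ 6
    - 9972720 * (57 * c₄ ^ 3 * c₆ - 40 * c₆ ^ 3) * t ^ 7
    - 48617010 * (135 * c₄ ^ 5 - 152 * c₄ ^ 2 * c₆ ^ 2) * t ^ 8
    + 194468040 * (783 * c₄ ^ 4 * c₆ - 800 * c₄ * c₆ ^ 3) * t ^ 9
    - 58340412 * (10125 * c₄ ^ 6 + 5688 * c₄ ^ 3 * c₆ ^ 2 - 16000 * c₆ ^ 4) * t ^ 10
    + 1750212360 * (5535 * c₄ ^ 5 * c₆ - 5552 * c₄ ^ 2 * c₆ ^ 3) * t ^ 11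
    - 3937977810 * (6075 * c₄ ^ 7 - 972 * c₄ ^ 4 * c₆ ^ 2 - 5120 * c₄ * c₆ ^ 4) * t ^ 12
    + 7270112880 * (7695 * c₄ ^ 6 * c₆ + 5088 * c₄ ^ 3 * c₆ ^ 3 - 12800 * c₆ ^ 5) * t ^ 13
    + 10905169320 * (91125 * c₄ ^ 8 - 217188 * c₄ ^ 5 * c₆ ^ 2 + 126080 * c₄ ^ 2 * c₆ ^ 4) * t ^ 14
    - 13086203184 * (455625 * c₄ ^ 7 * c₆ - 967608 * c₄ ^ 4 * c₆ ^ 3 + 512000 * c₄ * c₆ ^ 5) * t ^ 15
    - 12268315485 * (273375 * c₄ ^ 9 - 2507760 * c₄ ^ 6 * c₆ ^ 2 + 4282368 * c₄ ^ 3 * c₆ ^ 4 - 2048000 * c₆ ^ 6) * t ^ 16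
    - 147219785820 * (309825 * c₄ ^ 8 * c₆ - 627264 * c₄ ^ 5 * c₆ ^ 3 + 317440 * c₄ ^ 2 * c₆ ^ 5) * t ^ 17
    + 73609892910 * (4100625 * c₄ ^ 10 - 11489040 * c₄ ^ 7 * c₆ ^ 2 + 10665216 * c₄ ^ 4 * c₆ ^ 4 - 3276800 * c₄ * c₆ ^ 6) * t ^ 18
    - 23245229340 * (34718625 * c₄ ^ 9 * c₆ - 102220704 * c₄ ^ 6 * c₆ ^ 3 + 100270080 * c₄ ^ 3 * c₆ ^ 5 - 32768000 * c₆ ^ 7) * t ^ 19
    + 3486784401 * (184528125 * c₄ ^ 11 - 549301500 * c₄ ^ 8 * c₆ ^ 2 + 544997376 * c₄ ^ 5 * c₆ ^ 4 - 180224000 * c₄ ^ 2 * c₆ ^ 6) * t ^ 20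

/-- `Poly2` copy of `rsC6`. -/
def rsC6p (c₄ c₆ t : Poly2) : Poly2 :=
    c₆
    - 90 * c₄ ^ 2 * t
    + 3915 * c₄ * c₆ * t ^ 2
    - 15660 * (2 * c₄ ^ 3 + 5 * c₆ ^ 2) * t ^ 3
    + 2219805 * c₄ ^ 2 * c₆ * t ^ 4
    - 380538 * (61 * c₄ ^ 4 + 30 * c₄ * c₆ ^ 2) * t ^ 5
    + 4756725 * (67 * c₄ ^ 3 * c₆ + 24 * c₆ ^ 3) * t ^ 6
    + 342484200 * (12 * c₄ ^ 5 - 25 * c₄ ^ 2 * c₆ ^ 2) * t ^ 7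
    - 2953926225 * (19 * c₄ ^ 4 * c₆ - 32 * c₄ * c₆ ^ 3) * t ^ 8
    - 1969284150 * (243 * c₄ ^ 6 - 420 * c₄ ^ 3 * c₆ ^ 2 + 320 * c₆ ^ 4) * t ^ 9
    + 19495913085 * (747 * c₄ ^ 5 * c₆ - 656 * c₄ ^ 2 * c₆ ^ 3) * t ^ 10
    - 106341344100 * (270 * c₄ ^ 7 + 2253 * c₄ ^ 4 * c₆ ^ 2 - 2432 * c₄ * c₆ ^ 4) * t ^ 11
    + 505121384475 * (4347 * c₄ ^ 6 * c₆ - 1696 * c₄ ^ 3 * c₆ ^ 3 - 2560 * c₆ ^ 5) * t ^ 12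
    - 27276554761650 * (405 * c₄ ^ 8 + 306 * c₄ ^ 5 * c₆ ^ 2 - 704 * c₄ ^ 2 * c₆ ^ 4) * t ^ 13
    + 695552146422075 * (297 * c₄ ^ 7 * c₆ - 296 * c₄ ^ 4 * c₆ ^ 3) * t ^ 14
    - 2225766868550640 * (513 * c₄ ^ 6 * c₆ ^ 2 - 512 * c₄ ^ 3 * c₆ ^ 4) * t ^ 15
    - 6259969317798675 * (1215 * c₄ ^ 8 * c₆ - 3264 * c₄ ^ 5 * c₆ ^ 3 + 2048 * c₄ ^ 2 * c₆ ^ 5) * t ^ 16
    + 2209400935693650 * (18225 * c₄ ^ 10 - 4536 * c₄ ^ 7 * c₆ ^ 2 - 54656 * c₄ ^ 4 * c₆ ^ 4 + 40960 * c₄ * c₆ ^ 6) * t ^ 17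
    - 368233489282275 * (1782405 * c₄ ^ 9 * c₆ - 2921184 * c₄ ^ 6 * c₆ ^ 3 + 319488 * c₄ ^ 3 * c₆ ^ 5 + 819200 * c₆ ^ 7) * t ^ 18
    + 697705558640100 * (546750 * c₄ ^ 11 + 5800167 * c₄ ^ 8 * c₆ ^ 2 - 13494528 * c₄ ^ 5 * c₆ ^ 4 + 7147520 * c₄ ^ 2 * c₆ ^ 6) * t ^ 19
    - 104655833796015 * (95772375 * c₄ ^ 10 * c₆ - 80789184 * c₄ ^ 7 * c₆ ^ 3 - 129672192 * c₄ ^ 4 * c₆ ^ 5 + 114688000 * c₄ * c₆ ^ 7) * t ^ 20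
    + 1046558337960150 * (22143375 * c₄ ^ 12 - 30756510 * c₄ ^ 9 * c₆ ^ 2 + 27077760 * c₄ ^ 6 * c₆ ^ 4 - 51232768 * c₄ ^ 3 * c₆ ^ 6 + 32768000 * c₆ ^ 8) * t ^ 21
    - 14128537562462025 * (3116475 * c₄ ^ 11 * c₆ + 3830328 * c₄ ^ 8 * c₆ ^ 3 - 17104896 * c₄ ^ 5 * c₆ ^ 5 + 10158080 * c₄ ^ 2 * c₆ ^ 7) * t ^ 22
    - 14742821804308200 * (49207500 * c₄ ^ 13 - 213374655 * c₄ ^ 10 * c₆ ^ 2 + 318574080 * c₄ ^ 7 * c₆ ^ 4 - 193728512 * c₄ ^ 4 * c₆ ^ 6 + 39321600 * c₄ * c₆ ^ 8) * t ^ 23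
    + 1842852725538525 * (779938875 * c₄ ^ 12 * c₆ - 3476968416 * c₄ ^ 9 * c₆ ^ 3 + 5401700352 * c₄ ^ 6 * c₆ ^ 5 - 3491102720 * c₄ ^ 3 * c₆ ^ 7 + 786432000 * c₆ ^ 9) * t ^ 24
    + 1326853962387738 * (11256215625 * c₄ ^ 14 - 44762422500 * c₄ ^ 11 * c₆ ^ 2 + 67387360320 * c₄ ^ 8 * c₆ ^ 4 - 45513793536 * c₄ ^ 5 * c₆ ^ 6 + 11632640000 * c₄ ^ 2 * c₆ ^ 8) * t ^ 25
    - 9951404717908035 * (10468895625 * c₄ ^ 13 * c₆ - 41806400400 * c₄ ^ 10 * c₆ ^ 3 + 62691729408 * c₄ ^ 7 * c₆ ^ 5 - 41839984640 * c₄ ^ 4 * c₆ ^ 7 + 10485760000 * c₄ * c₆ ^ 9) * t ^ 26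
    + 4422846541292460 * (16607531250 * c₄ ^ 15 - 13972469625 * c₄ ^ 12 * c₆ ^ 2 - 110010648960 * c₄ ^ 9 * c₆ ^ 4 + 247937200128 * c₄ ^ 6 * c₆ ^ 6 - 192990412800 * c₄ ^ 3 * c₆ ^ 8 + 52428800000 * c₆ ^ 10) * t ^ 27
    - 9951404717908035 * (49269009375 * c₄ ^ 14 * c₆ - 197055698400 * c₄ ^ 11 * c₆ ^ 3 + 295587408384 * c₄ ^ 8 * c₆ ^ 5 - 197083791360 * c₄ ^ 5 * c₆ ^ 7 + 49283072000 * c₄ ^ 2 * c₆ ^ 9) * t ^ 28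
    + 2058911320946490 * (373669453125 * c₄ ^ 16 - 1662450783750 * c₄ ^ 13 * c₆ ^ 2 + 2913163081920 * c₄ ^ 10 * c₆ ^ 4 - 2501423824896 * c₄ ^ 7 * c₆ ^ 6 + 1044814233600 * c₄ ^ 4 * c₆ ^ 8 - 167772160000 * c₄ * c₆ ^ 10) * t ^ 29
    - 205891132094649 * (4110363984375 * c₄ ^ 15 * c₆ - 19796866155000 * c₄ ^ 12 * c₆ ^ 3 + 38083944628224 * c₄ ^ 9 * c₆ ^ 5 - 36574189977600 * c₄ ^ 6 * c₆ ^ 7 + 17532190720000 * c₄ ^ 3 * c₆ ^ 9 - 3355443200000 * c₆ ^ 11) * t ^ 30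


section evalLemmas

variable {R : Type*} [CommRing R] (x y : R)

lemma eval_hC4p (n m : Poly2) : (hC4p n m).eval x y = hC4 (n.eval x y) (m.eval x y) := by
  simp only [hC4p, hC4, eval_add, eval_sub, eval_mul, eval_pow, eval_ofNat]

lemma eval_hC6p (n m : Poly2) : (hC6p n m).eval x y = hC6 (n.eval x y) (m.eval x y) := by
  simp only [hC6p, hC6, eval_add, eval_sub, eval_mul, eval_pow, eval_ofNat]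

lemma eval_rsXp (n₀ m₀ t : Poly2) :
    (rsXp n₀ m₀ t).eval x y = rsX (n₀.eval x y) (m₀.eval x y) (t.eval x y) := by
  simp only [rsXp, rsX, eval_add, eval_mul, eval_pow, eval_ofNat, eval_one]

lemma eval_rsYp (n₀ m₀ t : Poly2) :
    (rsYp n₀ m₀ t).eval x y = rsY (n₀.eval x y) (m₀.eval x y) (t.eval x y) := by
  simp only [rsYp, rsY, eval_mul, eval_ofNat]

lemma eval_rsPp (n₀ m₀ t : Poly2) :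
    (rsPp n₀ m₀ t).eval x y = rsP (n₀.eval x y) (m₀.eval x y) (t.eval x y) := by
  simp only [rsPp, rsP, eval_add, eval_mul, eval_pow, eval_ofNat, eval_rsXp, eval_rsYp]

lemma eval_rsQp (n₀ m₀ t : Poly2) :
    (rsQp n₀ m₀ t).eval x y = rsQ (n₀.eval x y) (m₀.eval x y) (t.eval x y) := by
  simp only [rsQp, rsQ, eval_add, eval_mul, eval_pow, eval_ofNat, eval_rsXp, eval_rsYp]

lemma eval_rsNp (n₀ m₀ t : Poly2) :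
    (rsNp n₀ m₀ t).eval x y = rsN (n₀.eval x y) (m₀.eval x y) (t.eval x y) := by
  simp only [rsNp, rsN, eval_add, eval_sub, eval_mul, eval_ofNat, eval_rsPp, eval_rsQp]

lemma eval_rsMp (n₀ m₀ t : Poly2) :
    (rsMp n₀ m₀ t).eval x y = rsM (n₀.eval x y) (m₀.eval x y) (t.eval x y) := by
  simp only [rsMp, rsM, eval_sub, eval_mul, eval_ofNat, eval_rsPp, eval_rsQp]

lemma eval_rsLp (n₀ m₀ t : Poly2) :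
    (rsLp n₀ m₀ t).eval x y = rsL (n₀.eval x y) (m₀.eval x y) (t.eval x y) := by
  simp only [rsLp, rsL, eval_sub, eval_mul, eval_pow, eval_ofNat, eval_rsXp, eval_rsYp]

lemma eval_rsDiscp (c₄ c₆ t : Poly2) :
    (rsDiscp c₄ c₆ t).eval x y = rsDisc (c₄.eval x y) (c₆.eval x y) (t.eval x y) := by
  simp only [rsDiscp, rsDisc, eval_add, eval_sub, eval_mul, eval_pow, eval_ofNat, eval_one]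

lemma eval_rsC4p (c₄ c₆ t : Poly2) :
    (rsC4p c₄ c₆ t).eval x y = rsC4 (c₄.eval x y) (c₆.eval x y) (t.eval x y) := by
  simp only [rsC4p, rsC4, eval_add, eval_sub, eval_mul, eval_pow, eval_ofNat]

lemma eval_rsC6p (c₄ c₆ t : Poly2) :
    (rsC6p c₄ c₆ t).eval x y = rsC6 (c₄.eval x y) (c₆.eval x y) (t.eval x y) := by
  simp only [rsC6p, rsC6, eval_add, eval_sub, eval_mul, eval_pow, eval_ofNat]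

end evalLemmas


end Fermat.Agent.H38
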