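import Fermat.Agent.H38.FiveTorsion

/-!
# Tate normal form for points of exact order five (helper38, project P-S52, WP-D1)

Over a field `K` in which `2` and `3` are invertible, let `W : y² = x³ + a x + b` be a short
Weierstrass curve and `P = (x₁, y₁)` a nonsingular point with `P ≠ 0` and `5 • P = 0`.  Then there
are `s u : K`, both nonzero, with

* `a  = -27 (s⁴ - 12 s³ + 14 s² + 12 s + 1) u⁴`,
* `b  =  54 (s⁶ - 18 s⁵ + 75 s⁴ + 75 s² + 18 s + 1) u⁶`,
* `x(P)  = 3 (s² - 6 s + 1) u²`,  `y(P)  = -108 s u³`,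
* `x(2P) = 3 (s² + 6 s + 1) u²`,  `y(2P) = 108 s² u³`,

and `-16 (4a³ + 27b²) = 2¹² 3¹² s⁵ (s² - 11 s - 1) u¹²`.  (This is the short Weierstrass model of
the Tate normal form `y² + (1 - s) x y - s y = x³ - s x²` of `X₁(5)`, scaled by `u`.)

Conversely, for all `s u` with `s u (s² - 11 s - 1) ≠ 0` the point `(x(P), y(P))` above is a
nonsingular point of exact order five with double `(x(2P), y(2P))`.

The proof uses only the slopes of the two tangent lines: if `λ`, `μ` are the slopes of the tangents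
at `P` and `2P` then `u = (λ + μ) / 6` and `s = (μ - λ) / (λ + μ)`.
-/

set_option autoImplicit false
set_option linter.unusedSectionVars false

namespace Fermat.Agent.H38

open WeierstrassCurve WeierstrassCurve.Affine

variable {K : Type*} [Field K]

/-- The `c₄`-invariant of the Tate normal form `y² + (1 - s)xy - sy = x³ - sx²` of `X₁(5)`. -/
def tateC4 (s : K) : K := s ^ 4 - 12 * s ^ 3 + 14 * s ^ 2 + 12 * s + 1

/-- Minus the `c₆`-invariant of the Tate normal form `y² + (1 - s)xy - sy = x³ - sx²`. -/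
def tateC6 (s : K) : K := s ^ 6 - 18 * s ^ 5 + 75 * s ^ 4 + 75 * s ^ 2 + 18 * s + 1

/-- The coefficient `a` of the short Weierstrass model `y² = x³ + ax + b` with parameters
`(s, u)`. -/
def tateA (s u : K) : K := -27 * tateC4 s * u ^ 4

/-- The coefficient `b` of the short Weierstrass model `y² = x³ + ax + b` with parameters
`(s, u)`. -/
def tateB (s u : K) : K := 54 * tateC6 s * u ^ 6

/-- `x(P)` for the marked point of order five. -/
def tateX1 (s u : K) : K := 3 * (s ^ 2 - 6 * s + 1) * u ^ 2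

/-- `y(P)` for the marked point of order five. -/
def tateY1 (s u : K) : K := -108 * s * u ^ 3

/-- `x(2P)` for the marked point of order five. -/
def tateX2 (s u : K) : K := 3 * (s ^ 2 + 6 * s + 1) * u ^ 2

/-- `y(2P)` for the marked point of order five. -/
def tateY2 (s u : K) : K := 108 * s ^ 2 * u ^ 3

/-- The slope of the tangent at `P`. -/
def tateL1 (s u : K) : K := 3 * u * (1 - s)

/-- The slope of the tangent at `2P`. -/
def tateL2 (s u : K) : K := 3 * u * (1 + s)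

lemma tate_equation1 (s u : K) :
    tateY1 s u ^ 2 = tateX1 s u ^ 3 + tateA s u * tateX1 s u + tateB s u := by
  simp only [tateY1, tateX1, tateA, tateB, tateC4, tateC6]; ring

lemma tate_equation2 (s u : K) :
    tateY2 s u ^ 2 = tateX2 s u ^ 3 + tateA s u * tateX2 s u + tateB s u := by
  simp only [tateY2, tateX2, tateA, tateB, tateC4, tateC6]; ring

lemma tate_disc (s u : K) :
    -16 * (4 * tateA s u ^ 3 + 27 * tateB s u ^ 2) =
      2 ^ 12 * 3 ^ 12 * s ^ 5 * (s ^ 2 - 11 * s - 1) * u ^ 12 := by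
  simp only [tateA, tateB, tateC4, tateC6]; ring

lemma tate_slope1 (s u : K) :
    2 * tateY1 s u * tateL1 s u = 3 * tateX1 s u ^ 2 + tateA s u := by
  simp only [tateY1, tateX1, tateA, tateL1, tateC4]; ring

lemma tate_slope2 (s u : K) :
    2 * tateY2 s u * tateL2 s u = 3 * tateX2 s u ^ 2 + tateA s u := by
  simp only [tateY2, tateX2, tateA, tateL2, tateC4]; ring

lemma tate_dbl_x1 (s u : K) : tateX2 s u = tateL1 s u ^ 2 - 2 * tateX1 s u := by
  simp only [tateX1, tateX2, tateL1]; ring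

lemma tate_dbl_y1 (s u : K) :
    tateY2 s u = -(tateL1 s u * (tateX2 s u - tateX1 s u) + tateY1 s u) := by
  simp only [tateX1, tateX2, tateY1, tateY2, tateL1]; ring

lemma tate_dbl_x2 (s u : K) : tateX1 s u = tateL2 s u ^ 2 - 2 * tateX2 s u := by
  simp only [tateX1, tateX2, tateL2]; ring

lemma tate_dbl_y2 (s u : K) :
    -tateY1 s u = -(tateL2 s u * (tateX1 s u - tateX2 s u) + tateY2 s u) := by
  simp only [tateX1, tateX2, tateY1, tateY2, tateL2]; ring

/-- **Algebraic core of the Tate normal form.**  If `(x₂, y₂)` is the double of `(x₁, y₁)` on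
`y² = x³ + ax + b` via the tangent of slope `l`, and `(x₁, -y₁)` is the double of `(x₂, y₂)` via the
tangent of slope `m`, and `x₁ ≠ x₂`, then everything is given by the Tate parametrisation. -/
lemma tate_core (h2 : (2 : K) ≠ 0) (h3 : (3 : K) ≠ 0) {a b x₁ y₁ x₂ y₂ l m : K}
    (hE : y₁ ^ 2 = x₁ ^ 3 + a * x₁ + b)
    (hL : 2 * y₁ * l = 3 * x₁ ^ 2 + a)
    (hX2 : x₂ = l ^ 2 - 2 * x₁)
    (hY2 : y₂ = -(l * (x₂ - x₁) + y₁))
    (hX1 : x₁ = m ^ 2 - 2 * x₂)
    (hY1 : -y₁ = -(m * (x₁ - x₂) + y₂))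
    (hne : x₁ ≠ x₂) :
    ∃ s u : K, u ≠ 0 ∧ s ≠ 0 ∧ a = tateA s u ∧ b = tateB s u ∧
      x₁ = tateX1 s u ∧ y₁ = tateY1 s u ∧ x₂ = tateX2 s u ∧ y₂ = tateY2 s u ∧
      l = tateL1 s u ∧ m = tateL2 s u := by
  have h6 : (6 : K) ≠ 0 := by
    have : (6 : K) = 2 * 3 := by norm_num
    rw [this]; exact mul_ne_zero h2 h3
  -- `D = x₂ - x₁ = m² - l²`
  have hD : x₂ - x₁ = (m - l) * (m + l) := by linear_combination hX1 - hX2
  have hDne : x₂ - x₁ ≠ 0 := sub_ne_zero.mpr (Ne.symm hne)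
  have hml : m - l ≠ 0 := fun h => hDne (by rw [hD, h, zero_mul])
  have hlm : m + l ≠ 0 := fun h => hDne (by rw [hD, h, mul_zero])
  -- `2 y₁ = -(l + m) D`
  have hy : 2 * y₁ = -((m + l) * (x₂ - x₁)) := by linear_combination hY2 - hY1
  -- `3 (x₁ + x₂) = l² + m²`
  have hS : 3 * (x₁ + x₂) = l ^ 2 + m ^ 2 := by linear_combination hX2 + hX1
  set u : K := (m + l) / 6 with hu
  set s : K := (m - l) / (m + l) with hs
  have hu0 : u ≠ 0 := div_ne_zero hlm h6
  have hs0 : s ≠ 0 := div_ne_zero hml hlm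
  have e1 : m + l = 6 * u := by rw [hu]; field_simp
  have e2 : m - l = 6 * u * s := by rw [← e1, hs]; field_simp
  have el : l = 3 * u * (1 - s) := by
    have : 2 * l = 2 * (3 * u * (1 - s)) := by linear_combination e1 - e2
    exact mul_left_cancel₀ h2 this
  have em : m = 3 * u * (1 + s) := by
    have : 2 * m = 2 * (3 * u * (1 + s)) := by linear_combination e1 + e2
    exact mul_left_cancel₀ h2 this
  have eD : x₂ - x₁ = 36 * s * u ^ 2 := by rw [hD, e1, e2]; ring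
  have eS : x₁ + x₂ = 6 * u ^ 2 * (1 + s ^ 2) := by
    have : 3 * (x₁ + x₂) = 3 * (6 * u ^ 2 * (1 + s ^ 2)) := by rw [hS, el, em]; ring
    exact mul_left_cancel₀ h3 this
  have ex1 : x₁ = 3 * (s ^ 2 - 6 * s + 1) * u ^ 2 := by
    have : 2 * x₁ = 2 * (3 * (s ^ 2 - 6 * s + 1) * u ^ 2) := by linear_combination eS - eD
    exact mul_left_cancel₀ h2 this
  have ex2 : x₂ = 3 * (s ^ 2 + 6 * s + 1) * u ^ 2 := by
    have : 2 * x₂ = 2 * (3 * (s ^ 2 + 6 * s + 1) * u ^ 2) := by linear_combination eS + eD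
    exact mul_left_cancel₀ h2 this
  have ey1 : y₁ = -108 * s * u ^ 3 := by
    have : 2 * y₁ = 2 * (-108 * s * u ^ 3) := by rw [hy, e1, eD]; ring
    exact mul_left_cancel₀ h2 this
  have ey2 : y₂ = 108 * s ^ 2 * u ^ 3 := by rw [hY2, eD, el, ey1]; ring
  have ea : a = -27 * tateC4 s * u ^ 4 := by
    have : a = 2 * y₁ * l - 3 * x₁ ^ 2 := by linear_combination -hL
    rw [this, ey1, el, ex1, tateC4]; ring
  have eb : b = 54 * tateC6 s * u ^ 6 := by
    have : b = y₁ ^ 2 - x₁ ^ 3 - a * x₁ := by linear_combination -hE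
    rw [this, ea, ey1, ex1, tateC4, tateC6]; ring
  exact ⟨s, u, hu0, hs0, ea, eb, ex1, ey1, ex2, ey2, el, em⟩


/-! ## Doubling on a short Weierstrass curve -/

variable [DecidableEq K]

lemma some_eq_some_of_eq (W : WeierstrassCurve K) {x y x' y' : K}
    (h : W.toAffine.Nonsingular x y) (hx : x = x') (hy : y = y') :
    ∃ h' : W.toAffine.Nonsingular x' y', Point.some x y h = Point.some x' y' h' := by
  subst hx hy
  exact ⟨h, rfl⟩

/-- On a short Weierstrass curve: if `2 • (x, y) ≠ 0` then `y ≠ 0` and the double is given by the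
tangent-line formulas. -/
lemma two_nsmul_short_data (W : WeierstrassCurve K) (ha1 : W.a₁ = 0) (ha2 : W.a₂ = 0)
    (ha3 : W.a₃ = 0) {x y : K} (h : W.toAffine.Nonsingular x y)
    (h2P : (2 : ℕ) • (Point.some x y h : W.toAffine.Point) ≠ 0) :
    ∃ (l x' y' : K) (h' : W.toAffine.Nonsingular x' y'),
      2 * y * l = 3 * x ^ 2 + W.a₄ ∧ x' = l ^ 2 - 2 * x ∧ y' = -(l * (x' - x) + y) ∧
      (2 : ℕ) • (Point.some x y h : W.toAffine.Point) = Point.some x' y' h' := by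
  have hy : y ≠ W.toAffine.negY x y := by
    intro hy
    apply h2P
    rw [two_nsmul]
    exact Point.add_self_of_Y_eq hy
  have hy2 : 2 * y ≠ 0 := by
    intro h0
    apply hy
    simp only [negY, ha1, ha3]
    linear_combination h0
  refine ⟨W.toAffine.slope x x y y, _, _, _, ?_, ?_, ?_,
    by rw [two_nsmul]; exact Point.add_self_of_Y_ne hy⟩
  · rw [Affine.slope_of_Y_ne rfl hy]
    simp only [negY, ha1, ha2, ha3]
    have : y - (-y - 0 * x - 0) = 2 * y := by ring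
    rw [this, mul_comm, div_mul_cancel₀ _ hy2]
    ring
  · simp only [addX, ha1, ha2]
    ring
  · simp only [addY, negY, negAddY, addX, ha1, ha2, ha3]
    ring

/-- On a short Weierstrass curve with `2 ≠ 0`: the double of `(x, y)`, `y ≠ 0`, is given by the
tangent-line formulas. -/
lemma two_nsmul_short (h2 : (2 : K) ≠ 0) (W : WeierstrassCurve K) (ha1 : W.a₁ = 0)
    (ha2 : W.a₂ = 0) (ha3 : W.a₃ = 0) {x y : K} (h : W.toAffine.Nonsingular x y) (hy0 : y ≠ 0)
    {l x' y' : K} (hl : 2 * y * l = 3 * x ^ 2 + W.a₄) (hx' : x' = l ^ 2 - 2 * x)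
    (hy' : y' = -(l * (x' - x) + y)) :
    ∃ h' : W.toAffine.Nonsingular x' y',
      (2 : ℕ) • (Point.some x y h : W.toAffine.Point) = Point.some x' y' h' := by
  have hy2 : 2 * y ≠ 0 := mul_ne_zero h2 hy0
  have hy : y ≠ W.toAffine.negY x y := by
    intro hy
    apply hy2
    simp only [negY, ha1, ha3] at hy
    linear_combination hy
  have hs : W.toAffine.slope x x y y = l := by
    rw [Affine.slope_of_Y_ne rfl hy]
    simp only [negY, ha1, ha2, ha3]
    have : y - (-y - 0 * x - 0) = 2 * y := by ring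
    rw [this, div_eq_iff hy2]
    linear_combination -hl
  rw [two_nsmul, Point.add_self_of_Y_ne hy]
  apply some_eq_some_of_eq
  · rw [hs, hx']
    simp only [addX, ha1, ha2]
    ring
  · rw [hs, hy', hx']
    simp only [addY, negY, negAddY, addX, ha1, ha2, ha3]
    ring

/-- On a short Weierstrass curve with `2 ≠ 0`, a point `(x, y)` on the curve with `y ≠ 0` is
nonsingular. -/
lemma nonsingular_short (h2 : (2 : K) ≠ 0) (W : WeierstrassCurve K) (ha1 : W.a₁ = 0)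
    (ha2 : W.a₂ = 0) (ha3 : W.a₃ = 0) {x y : K} (hE : y ^ 2 = x ^ 3 + W.a₄ * x + W.a₆)
    (hy0 : y ≠ 0) : W.toAffine.Nonsingular x y := by
  rw [Affine.nonsingular_iff, Affine.equation_iff]
  refine ⟨by rw [ha1, ha2, ha3]; linear_combination hE, Or.inr ?_⟩
  intro hy
  apply mul_ne_zero h2 hy0
  rw [ha1, ha3] at hy
  linear_combination hy

/-! ## The Tate normal form -/

/-- **Tate normal form for points of exact order five** (short Weierstrass form).  If `(x₁, y₁)` is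
a nonsingular point killed by `5` on `W : y² = x³ + a₄ x + a₆` over a field in which `2` and `3`
are invertible, then `(a₄, a₆, x₁, y₁)` and the coordinates of the double are given by the Tate
parametrisation, for some nonzero `s, u`. -/
theorem tate_normal_form_five (h2 : (2 : K) ≠ 0) (h3 : (3 : K) ≠ 0) (W : WeierstrassCurve K)
    (ha1 : W.a₁ = 0) (ha2 : W.a₂ = 0) (ha3 : W.a₃ = 0) {x₁ y₁ : K}
    (h : W.toAffine.Nonsingular x₁ y₁)
    (h5 : (5 : ℕ) • (Point.some x₁ y₁ h : W.toAffine.Point) = 0) :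
    ∃ s u : K, u ≠ 0 ∧ s ≠ 0 ∧ W.a₄ = tateA s u ∧ W.a₆ = tateB s u ∧
      x₁ = tateX1 s u ∧ y₁ = tateY1 s u ∧
      ∃ h₂ : W.toAffine.Nonsingular (tateX2 s u) (tateY2 s u),
        (2 : ℕ) • (Point.some x₁ y₁ h : W.toAffine.Point) = Point.some _ _ h₂ := by
  have hP : (Point.some x₁ y₁ h : W.toAffine.Point) ≠ 0 := Point.some_ne_zero h
  obtain ⟨h2P, hne, -⟩ := five_torsion_data W hP h5
  have h4 : (2 : ℕ) • ((2 : ℕ) • (Point.some x₁ y₁ h : W.toAffine.Point)) =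
      -Point.some x₁ y₁ h := by
    have : (2 : ℕ) • ((2 : ℕ) • (Point.some x₁ y₁ h : W.toAffine.Point)) + Point.some x₁ y₁ h
        = 0 := by rw [← h5]; abel
    exact eq_neg_of_add_eq_zero_left this
  obtain ⟨l, x₂, y₂, h₂, hl, hx₂, hy₂, e2⟩ := two_nsmul_short_data W ha1 ha2 ha3 h h2P
  have h4P : (2 : ℕ) • (Point.some x₂ y₂ h₂ : W.toAffine.Point) ≠ 0 := by
    rw [← e2, h4]
    exact neg_ne_zero.mpr hP
  obtain ⟨m, x₃, y₃, h₃, hm, hx₃, hy₃, e4⟩ := two_nsmul_short_data W ha1 ha2 ha3 h₂ h4P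
  rw [← e2, h4, Point.neg_some, Point.some.injEq] at e4
  obtain ⟨e4x, e4y⟩ := e4
  simp only [negY, ha1, ha3] at e4y
  rw [e2, xc_some, xc_some] at hne
  have hE : y₁ ^ 2 = x₁ ^ 3 + W.a₄ * x₁ + W.a₆ := by
    have := h.1
    rw [Affine.equation_iff, ha1, ha2, ha3] at this
    linear_combination this
  have hX1 : x₁ = m ^ 2 - 2 * x₂ := by rw [e4x]; exact hx₃
  have hY1 : -y₁ = -(m * (x₁ - x₂) + y₂) := by
    have : -y₁ = y₃ := by linear_combination e4y
    rw [this, hy₃, e4x]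
  obtain ⟨s, u, hu, hs, ea, eb, ex1, ey1, ex2, ey2, -, -⟩ :=
    tate_core h2 h3 hE hl hx₂ hy₂ hX1 hY1 hne
  refine ⟨s, u, hu, hs, ea, eb, ex1, ey1, ?_⟩
  rw [e2]
  exact some_eq_some_of_eq W h₂ ex2 ey2

/-- The discriminant in the Tate parametrisation. -/
lemma tate_Δ (W : WeierstrassCurve K) (ha1 : W.a₁ = 0) (ha2 : W.a₂ = 0) (ha3 : W.a₃ = 0)
    {s u : K} (ha4 : W.a₄ = tateA s u) (ha6 : W.a₆ = tateB s u) :
    W.Δ = 2 ^ 12 * 3 ^ 12 * s ^ 5 * (s ^ 2 - 11 * s - 1) * u ^ 12 := by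
  rw [← tate_disc, ← ha4, ← ha6]
  simp only [WeierstrassCurve.Δ, WeierstrassCurve.b₂, WeierstrassCurve.b₄, WeierstrassCurve.b₆,
    WeierstrassCurve.b₈, ha1, ha2, ha3]
  ring

/-- **Converse of the Tate normal form.**  For nonzero `s, u`, on the curve
`y² = x³ + tateA s u x + tateB s u` the point `(tateX1 s u, tateY1 s u)` is nonsingular, its double
is `(tateX2 s u, tateY2 s u)`, and it is killed by `5`. -/
theorem tate_point_five (h2 : (2 : K) ≠ 0) (h3 : (3 : K) ≠ 0) (W : WeierstrassCurve K)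
    (ha1 : W.a₁ = 0) (ha2 : W.a₂ = 0) (ha3 : W.a₃ = 0) {s u : K} (hu : u ≠ 0) (hs : s ≠ 0)
    (ha4 : W.a₄ = tateA s u) (ha6 : W.a₆ = tateB s u) :
    ∃ (h₁ : W.toAffine.Nonsingular (tateX1 s u) (tateY1 s u))
      (h₂ : W.toAffine.Nonsingular (tateX2 s u) (tateY2 s u)),
      (2 : ℕ) • (Point.some _ _ h₁ : W.toAffine.Point) = Point.some _ _ h₂ ∧
      (5 : ℕ) • (Point.some _ _ h₁ : W.toAffine.Point) = 0 := by
  have h108 : (108 : K) ≠ 0 := by
    have : (108 : K) = 2 ^ 2 * 3 ^ 3 := by norm_num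
    rw [this]
    exact mul_ne_zero (pow_ne_zero _ h2) (pow_ne_zero _ h3)
  have hy1 : tateY1 s u ≠ 0 := by
    simp only [tateY1]
    exact mul_ne_zero (mul_ne_zero (neg_ne_zero.mpr h108) hs) (pow_ne_zero _ hu)
  have hy2 : tateY2 s u ≠ 0 := by
    simp only [tateY2]
    exact mul_ne_zero (mul_ne_zero h108 (pow_ne_zero _ hs)) (pow_ne_zero _ hu)
  have h₁ : W.toAffine.Nonsingular (tateX1 s u) (tateY1 s u) :=
    nonsingular_short h2 W ha1 ha2 ha3 (by rw [ha4, ha6]; exact tate_equation1 s u) hy1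
  obtain ⟨h₂, e2⟩ := two_nsmul_short h2 W ha1 ha2 ha3 h₁ hy1
    (by rw [ha4]; exact tate_slope1 s u) (tate_dbl_x1 s u) (tate_dbl_y1 s u)
  obtain ⟨h₃, e4⟩ := two_nsmul_short h2 W ha1 ha2 ha3 h₂ hy2
    (by rw [ha4]; exact tate_slope2 s u) (tate_dbl_x2 s u) (tate_dbl_y2 s u)
  refine ⟨h₁, h₂, e2, ?_⟩
  have e5 : (5 : ℕ) • (Point.some _ _ h₁ : W.toAffine.Point) =
      (2 : ℕ) • ((2 : ℕ) • (Point.some _ _ h₁ : W.toAffine.Point)) + Point.some _ _ h₁ := by
    abel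
  rw [e5, e2, e4]
  apply Point.add_of_Y_eq rfl
  simp only [negY, ha1, ha3]
  ring


/-- If the curve is nonsingular (`Δ ≠ 0`) then `s² - 11 s - 1 ≠ 0` in the Tate parametrisation. -/
lemma tate_cusp_factor_ne_zero (W : WeierstrassCurve K) (ha1 : W.a₁ = 0) (ha2 : W.a₂ = 0)
    (ha3 : W.a₃ = 0) (hΔ : W.Δ ≠ 0) {s u : K} (ha4 : W.a₄ = tateA s u)
    (ha6 : W.a₆ = tateB s u) : s ^ 2 - 11 * s - 1 ≠ 0 := by
  intro h0
  apply hΔ
  rw [tate_Δ W ha1 ha2 ha3 ha4 ha6, h0]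
  ring

/-- In the Tate parametrisation with `2 3 s u (s² - 11 s - 1) ≠ 0` the curve is nonsingular. -/
lemma tate_Δ_ne_zero (h2 : (2 : K) ≠ 0) (h3 : (3 : K) ≠ 0) (W : WeierstrassCurve K)
    (ha1 : W.a₁ = 0) (ha2 : W.a₂ = 0) (ha3 : W.a₃ = 0) {s u : K} (hu : u ≠ 0) (hs : s ≠ 0)
    (hd : s ^ 2 - 11 * s - 1 ≠ 0) (ha4 : W.a₄ = tateA s u) (ha6 : W.a₆ = tateB s u) :
    W.Δ ≠ 0 := by
  rw [tate_Δ W ha1 ha2 ha3 ha4 ha6]
  exact mul_ne_zero (mul_ne_zero (mul_ne_zero (mul_ne_zero (pow_ne_zero _ h2) (pow_ne_zero _ h3))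
    (pow_ne_zero _ hs)) hd) (pow_ne_zero _ hu)

/-- **Tate normal form for points of exact order five**, for an arbitrary nonzero point `P` with
`5 • P = 0`. -/
theorem tate_normal_form_five_point (h2 : (2 : K) ≠ 0) (h3 : (3 : K) ≠ 0)
    (W : WeierstrassCurve K) (ha1 : W.a₁ = 0) (ha2 : W.a₂ = 0) (ha3 : W.a₃ = 0)
    {P : W.toAffine.Point} (hP : P ≠ 0) (h5 : (5 : ℕ) • P = 0) :
    ∃ s u : K, u ≠ 0 ∧ s ≠ 0 ∧ W.a₄ = tateA s u ∧ W.a₆ = tateB s u ∧
      ∃ (h₁ : W.toAffine.Nonsingular (tateX1 s u) (tateY1 s u))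
        (h₂ : W.toAffine.Nonsingular (tateX2 s u) (tateY2 s u)),
        P = Point.some _ _ h₁ ∧ (2 : ℕ) • P = Point.some _ _ h₂ := by
  obtain ⟨x₁, y₁, h, rfl⟩ := exists_some_of_ne_zero W hP
  obtain ⟨s, u, hu, hs, ea, eb, ex1, ey1, h₂, e2⟩ :=
    tate_normal_form_five h2 h3 W ha1 ha2 ha3 h h5
  obtain ⟨h₁, e1⟩ := some_eq_some_of_eq W h ex1 ey1
  exact ⟨s, u, hu, hs, ea, eb, h₁, h₂, e1, e2⟩

/-- **Tate normal form**, characteristic-zero version with the discriminant condition. -/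
theorem tate_normal_form_five_charZero [CharZero K] (W : WeierstrassCurve K)
    (ha1 : W.a₁ = 0) (ha2 : W.a₂ = 0) (ha3 : W.a₃ = 0) (hΔ : W.Δ ≠ 0)
    {P : W.toAffine.Point} (hP : P ≠ 0) (h5 : (5 : ℕ) • P = 0) :
    ∃ s u : K, u ≠ 0 ∧ s ≠ 0 ∧ s ^ 2 - 11 * s - 1 ≠ 0 ∧
      W.a₄ = tateA s u ∧ W.a₆ = tateB s u ∧
      ∃ (h₁ : W.toAffine.Nonsingular (tateX1 s u) (tateY1 s u))
        (h₂ : W.toAffine.Nonsingular (tateX2 s u) (tateY2 s u)),
        P = Point.some _ _ h₁ ∧ (2 : ℕ) • P = Point.some _ _ h₂ := by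
  obtain ⟨s, u, hu, hs, ea, eb, h₁, h₂, e1, e2⟩ :=
    tate_normal_form_five_point (by norm_num) (by norm_num) W ha1 ha2 ha3 hP h5
  exact ⟨s, u, hu, hs, tate_cusp_factor_ne_zero W ha1 ha2 ha3 hΔ ea eb, ea, eb, h₁, h₂, e1, e2⟩

end Fermat.Agent.H38
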